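/-
helper17 (P-CFT, WP Kummer/CyclotomicAux, part A: elementary number theory).

* `exists_prime_gt_dvd_orderOf`, `exists_prime_notMem_dvd_orderOf` : for `a ≥ 2`, `n ≥ 1` there are
  infinitely many primes `ℓ ∤ a` such that `n ∣ orderOf (a : ZMod ℓ)`;
* `exists_prime_notMem_modEq_one` : primes `ℓ ≡ 1 (mod n)` outside a given finite set;
* `exists_prime_orderOf_eq_prime_pow`, `exists_prime_notMem_orderOf_eq_prime_pow`,
  `exists_artin_prime_pair` : for `p` odd, primes `ℓ` with `orderOf (a : ZMod ℓ) = p ^ s` EXACTLY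
  (Artin's lemma in the form used by the cyclotomic crossing argument).

The field-theoretic half (linear disjointness from `K`, Galois group, Frobenius elements) is in
`Fermat.Agent.Lib.CFT.Kummer.CyclotomicAuxField`.
-/
import Mathlib

set_option autoImplicit false

open Polynomial

namespace Fermat.Agent.Lib.CFT.CyclotomicAux

/-- Key step: if a prime `ℓ` divides `Φ_N(a)` and `N = ℓ ^ v * m` with `ℓ ∤ m`, then the
multiplicative order of `a` modulo `ℓ` is exactly `m`. -/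
theorem orderOf_eq_of_dvd_cyclotomic_eval {a ℓ v m : ℕ} (hℓ : ℓ.Prime) (hm : ¬ ℓ ∣ m)
    (hdvd : (ℓ : ℤ) ∣ (cyclotomic (ℓ ^ v * m) ℤ).eval (a : ℤ)) :
    orderOf (a : ZMod ℓ) = m := by
  have : Fact ℓ.Prime := ⟨hℓ⟩
  have : NeZero (m : ZMod ℓ) := NeZero.of_not_dvd (ZMod ℓ) hm
  have hroot : IsRoot (cyclotomic (ℓ ^ v * m) (ZMod ℓ)) (a : ZMod ℓ) := by
    rw [IsRoot.def, ← map_cyclotomic_int (ℓ ^ v * m) (ZMod ℓ), eval_map]
    have h1 : ((a : ℕ) : ZMod ℓ) = Int.castRingHom (ZMod ℓ) (a : ℤ) := by simp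
    rw [h1, eval₂_hom, Int.coe_castRingHom, ZMod.intCast_zmod_eq_zero_iff_dvd]
    exact hdvd
  rw [isRoot_cyclotomic_prime_pow_mul_iff_of_charP] at hroot
  exact hroot.eq_orderOf.symm

/-- **Deliverable (1).** For `a ≥ 2` and `n ≥ 1` there are arbitrarily large primes `ℓ`, not
dividing `a`, such that `n` divides the multiplicative order of `a` modulo `ℓ`. -/
theorem exists_prime_gt_dvd_orderOf {a n : ℕ} (ha : 2 ≤ a) (hn : n ≠ 0) (B : ℕ) :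
    ∃ ℓ : ℕ, ℓ.Prime ∧ B < ℓ ∧ ¬ ℓ ∣ a ∧ n ∣ orderOf (a : ZMod ℓ) := by
  -- auxiliary prime `k > max n B`
  obtain ⟨k, hk_gt, hk⟩ := Nat.exists_infinite_primes (max n B + 1)
  have hkn : n < k := lt_of_le_of_lt (le_max_left n B) hk_gt
  have hkB : B < k := lt_of_le_of_lt (le_max_right n B) hk_gt
  have hnpos : 0 < n := Nat.pos_of_ne_zero hn
  have hk_ndvd_n : ¬ k ∣ n := fun h => absurd (Nat.le_of_dvd hnpos h) (not_le.mpr hkn)
  set N := n * k with hN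
  have hN1 : 1 < N := by
    calc 1 < k := hk.one_lt
      _ ≤ n * k := Nat.le_mul_of_pos_left k hnpos
  -- a prime factor of `Φ_N(a)`
  have hgt : 1 < ((cyclotomic N ℤ).eval (a : ℤ)).natAbs := by
    have := sub_one_lt_natAbs_cyclotomic_eval (n := N) (q := a) hN1 (by omega)
    omega
  obtain ⟨ℓ, hℓ, hℓdvd⟩ : ∃ ℓ : ℕ, ℓ.Prime ∧ (ℓ : ℤ) ∣ (cyclotomic N ℤ).eval (a : ℤ) :=
    ⟨_, Nat.minFac_prime (Nat.ne_of_gt hgt),
      Int.dvd_natAbs.1 (by exact_mod_cast Nat.minFac_dvd _)⟩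
  -- write `N = ℓ ^ v * m`
  obtain ⟨v, m, hm, hNvm⟩ := Nat.exists_eq_pow_mul_and_not_dvd (Nat.pos_of_ne_zero (by omega : N ≠ 0)).ne' ℓ hℓ.ne_one
  have hord : orderOf (a : ZMod ℓ) = m := by
    apply orderOf_eq_of_dvd_cyclotomic_eval (v := v) hℓ hm
    rwa [← hNvm]
  have : Fact ℓ.Prime := ⟨hℓ⟩
  have hmpos : 0 < m := by
    rcases Nat.eq_zero_or_pos m with h | h
    · exact absurd (h ▸ dvd_zero ℓ) hm
    · exact h
  -- `a` is a unit mod `ℓ`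
  have ha0 : (a : ZMod ℓ) ≠ 0 := by
    intro h0
    have : orderOf (a : ZMod ℓ) = 0 := by
      rw [h0, orderOf_eq_zero_iff]
      intro hfin
      obtain ⟨j, hj, hj1⟩ := hfin.exists_pow_eq_one
      rw [zero_pow hj.ne'] at hj1
      exact zero_ne_one hj1
    omega
  have hla : ¬ ℓ ∣ a := fun h => ha0 ((ZMod.natCast_eq_zero_iff a ℓ).2 h)
  have hm_dvd : m ∣ ℓ - 1 := hord ▸ ZMod.orderOf_dvd_card_sub_one ha0
  have hm_lt : m < ℓ := by
    have := Nat.le_of_dvd (by have := hℓ.two_le; omega) hm_dvd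
    have := hℓ.two_le
    omega
  -- `k ∣ ℓ ^ v * m`
  have hk_dvd : k ∣ ℓ ^ v * m := hNvm ▸ Dvd.intro_left n rfl
  rcases (Nat.Prime.dvd_mul hk).1 hk_dvd with h | h
  · -- `k = ℓ`
    have hkl : k = ℓ := (Nat.prime_dvd_prime_iff_eq hk hℓ).1 (hk.dvd_of_dvd_pow h)
    refine ⟨ℓ, hℓ, hkl ▸ hkB, hla, ?_⟩
    rw [hord]
    -- `n * k = k ^ v * m`, `k ∤ n`, `k ∤ m` so `v = 1`, `m = n`
    subst hkl
    rcases v with _ | _ | v
    · exfalso
      rw [pow_zero, one_mul] at hNvm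
      exact hm (hNvm ▸ Dvd.intro_left n rfl)
    · rw [pow_one, hN, mul_comm] at hNvm
      exact dvd_of_eq (Nat.eq_of_mul_eq_mul_left hk.pos hNvm)
    · exfalso
      apply hk_ndvd_n
      have : n * k = k * (k * (k ^ v * m)) := by rw [← hN, hNvm]; ring
      rw [mul_comm n k] at this
      exact ⟨_, Nat.eq_of_mul_eq_mul_left hk.pos this⟩
  · -- `k ∣ m`, so `k ≤ m < ℓ`
    have hkm : k ≤ m := Nat.le_of_dvd hmpos h
    have hℓ_gt : k < ℓ := lt_of_le_of_lt hkm hm_lt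
    refine ⟨ℓ, hℓ, hkB.trans hℓ_gt, hla, ?_⟩
    rw [hord]
    have hℓN : ¬ ℓ ∣ N := by
      intro hdvd
      rcases (Nat.Prime.dvd_mul hℓ).1 hdvd with h1 | h1
      · have := Nat.le_of_dvd hnpos h1
        omega
      · have := (Nat.prime_dvd_prime_iff_eq hℓ hk).1 h1
        omega
    rcases v with _ | v
    · rw [pow_zero, one_mul] at hNvm
      exact ⟨k, hNvm ▸ rfl⟩
    · exfalso
      apply hℓN
      rw [hNvm, pow_succ]
      exact ⟨ℓ ^ v * m, by ring⟩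

/-- Variant of (1) avoiding a finite set of primes. -/
theorem exists_prime_notMem_dvd_orderOf {a n : ℕ} (ha : 2 ≤ a) (hn : n ≠ 0) (T : Finset ℕ) :
    ∃ ℓ : ℕ, ℓ.Prime ∧ ℓ ∉ T ∧ ¬ ℓ ∣ a ∧ n ∣ orderOf (a : ZMod ℓ) := by
  obtain ⟨ℓ, hℓ, hB, hla, hn'⟩ := exists_prime_gt_dvd_orderOf ha hn (T.sup id)
  refine ⟨ℓ, hℓ, fun hmem => ?_, hla, hn'⟩
  have : ℓ ≤ T.sup id := Finset.le_sup (f := id) hmem
  omega

/-- **Deliverable (2).** For every `n ≥ 1` and every finite set `T` there is a prime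
`ℓ ≡ 1 (mod n)` outside `T`. -/
theorem exists_prime_notMem_modEq_one {n : ℕ} (hn : n ≠ 0) (T : Finset ℕ) :
    ∃ ℓ : ℕ, ℓ.Prime ∧ ℓ ∉ T ∧ ℓ ≡ 1 [MOD n] := by
  obtain ⟨ℓ, hℓ, hB, h1⟩ := Nat.exists_prime_gt_modEq_one (T.sup id) hn
  refine ⟨ℓ, hℓ, fun hmem => ?_, h1⟩
  have : ℓ ≤ T.sup id := Finset.le_sup (f := id) hmem
  omega

/-- The order is nonzero, so `a` is a unit mod `ℓ`, and `ℓ ≡ 1` modulo the order. -/
theorem not_dvd_and_modEq_one_of_orderOf_eq {a ℓ d : ℕ} (hℓ : ℓ.Prime) (hd : d ≠ 0)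
    (hord : orderOf (a : ZMod ℓ) = d) : ¬ ℓ ∣ a ∧ ℓ ≡ 1 [MOD d] := by
  have : Fact ℓ.Prime := ⟨hℓ⟩
  have ha0 : (a : ZMod ℓ) ≠ 0 := by
    intro h0
    have : orderOf (a : ZMod ℓ) = 0 := by
      rw [h0, orderOf_eq_zero_iff]
      intro hfin
      obtain ⟨j, hj, hj1⟩ := hfin.exists_pow_eq_one
      rw [zero_pow hj.ne'] at hj1
      exact zero_ne_one hj1
    omega
  refine ⟨fun h => ha0 ((ZMod.natCast_eq_zero_iff a ℓ).2 h), ?_⟩
  have hdvd : d ∣ ℓ - 1 := hord ▸ ZMod.orderOf_dvd_card_sub_one ha0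
  exact ((Nat.modEq_iff_dvd' hℓ.pos).2 hdvd).symm

/-- **Exact prime power orders** (`p` odd): for `a ≥ 2` and every `s ≥ 1` there is a prime `ℓ ≠ p`,
`ℓ ∤ a`, `ℓ ≡ 1 (mod p ^ s)`, such that the order of `a` modulo `ℓ` is exactly `p ^ s`. -/
theorem exists_prime_orderOf_eq_prime_pow {p a : ℕ} (hp : p.Prime) (hp2 : p ≠ 2) (ha : 2 ≤ a)
    {s : ℕ} (hs : s ≠ 0) :
    ∃ ℓ : ℕ, ℓ.Prime ∧ ℓ ≠ p ∧ ¬ ℓ ∣ a ∧ ℓ ≡ 1 [MOD p ^ s] ∧ orderOf (a : ZMod ℓ) = p ^ s := by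
  obtain ⟨k, rfl⟩ := Nat.exists_eq_succ_of_ne_zero hs
  have hpodd : Odd p := hp.odd_of_ne_two hp2
  set b : ℕ := a ^ p ^ k with hb
  have hb2 : 2 ≤ b := le_trans ha (Nat.le_self_pow (pow_ne_zero _ hp.ne_zero) a)
  set S : ℕ := ∑ i ∈ Finset.range p, b ^ i with hS
  have heval : (cyclotomic (p ^ (k + 1)) ℤ).eval (a : ℤ) = (S : ℤ) := by
    rw [cyclotomic_prime_pow_eq_geom_sum hp, eval_finsetSum, hS, Nat.cast_sum]
    refine Finset.sum_congr rfl fun i _ => ?_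
    rw [eval_pow, eval_pow, eval_X, hb]
    push_cast
    rfl
  -- `S > p`
  have hSgt : p < S := by
    have h1 : ∑ i ∈ Finset.range p, 1 < ∑ i ∈ Finset.range p, b ^ i := by
      apply Finset.sum_lt_sum
      · intro i _
        exact Nat.one_le_pow _ _ (by omega)
      · exact ⟨1, Finset.mem_range.2 hp.one_lt, by rw [pow_one]; omega⟩
    simpa using h1
  -- a prime factor different from `p`
  obtain ⟨ℓ, hℓ, hℓp, hℓS⟩ : ∃ ℓ : ℕ, ℓ.Prime ∧ ℓ ≠ p ∧ ℓ ∣ S := by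
    by_cases hpS : p ∣ S
    · -- then `p ∣ b - 1` and `p ∥ S`
      have : Fact p.Prime := ⟨hp⟩
      have hmul : (S : ℤ) * ((b : ℤ) - 1) = (b : ℤ) ^ p - 1 := by
        rw [hS, Nat.cast_sum]
        simp only [Nat.cast_pow]
        exact geom_sum_mul (b : ℤ) p
      have hpb : (p : ℤ) ∣ (b : ℤ) - 1 := by
        have h1 : ((S : ℤ) : ZMod p) = 0 := by
          rw [Int.cast_natCast, ZMod.natCast_eq_zero_iff]; exact hpS
        have h2 := congrArg (Int.cast : ℤ → ZMod p) hmul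
        push_cast at h2
        rw [ZMod.pow_card, ZMod.natCast_eq_zero_iff _ _ |>.2 hpS, zero_mul] at h2
        have h3 : (((b : ℤ) - 1 : ℤ) : ZMod p) = 0 := by
          push_cast; exact h2.symm
        exact (ZMod.intCast_zmod_eq_zero_iff_dvd _ _).1 h3
      have hpb' : ¬ (p : ℤ) ∣ (b : ℤ) := by
        intro h
        have := (Int.dvd_sub h hpb)
        rw [sub_sub_cancel] at this
        exact (Nat.prime_iff_prime_int.1 hp).not_dvd_one this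
      have hmult := emultiplicity_geom_sum₂_eq_one (R := ℤ) (x := (b : ℤ)) (y := 1)
        (Nat.prime_iff_prime_int.1 hp) hpodd (by simpa using hpb) hpb'
      simp only [one_pow, mul_one] at hmult
      have hSint : (∑ i ∈ Finset.range p, (b : ℤ) ^ i) = (S : ℤ) := by
        rw [hS, Nat.cast_sum]; simp
      rw [hSint] at hmult
      have hnot : ¬ p ^ 2 ∣ S := by
        have := (emultiplicity_eq_coe (n := 1)).1 (by exact_mod_cast hmult)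
        exact this.2
      obtain ⟨S', hS'⟩ := hpS
      have hS'gt : 1 < S' := by
        by_contra hle
        have : S' ≤ 1 := not_lt.1 hle
        have : S ≤ p := by rw [hS']; nlinarith
        omega
      have hpS' : ¬ p ∣ S' := by
        rintro ⟨c, hc⟩
        apply hnot
        refine ⟨c, ?_⟩
        rw [hS', hc]; ring
      refine ⟨S'.minFac, Nat.minFac_prime (by omega), ?_, ?_⟩
      · intro h
        exact hpS' (h ▸ Nat.minFac_dvd S')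
      · rw [hS']; exact (Nat.minFac_dvd S').mul_left p
    · refine ⟨S.minFac, Nat.minFac_prime (by have := hp.two_le; omega), ?_, Nat.minFac_dvd S⟩
      intro h
      exact hpS (h ▸ Nat.minFac_dvd S)
  have hℓN : ¬ ℓ ∣ p ^ (k + 1) := fun h =>
    hℓp ((Nat.prime_dvd_prime_iff_eq hℓ hp).1 (hℓ.dvd_of_dvd_pow h))
  have hord : orderOf (a : ZMod ℓ) = p ^ (k + 1) := by
    apply orderOf_eq_of_dvd_cyclotomic_eval (v := 0) hℓ hℓN
    rw [pow_zero, one_mul, heval]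
    exact_mod_cast hℓS
  obtain ⟨h1, h2⟩ := not_dvd_and_modEq_one_of_orderOf_eq hℓ (pow_ne_zero _ hp.ne_zero) hord
  exact ⟨ℓ, hℓ, hℓp, h1, h2, hord⟩

/-- Exact prime power orders, avoiding a finite set: for `p` odd, `a ≥ 2`, a finite set `T` and a
bound `s₀` there are a prime `ℓ ∉ T` and `s > s₀` with `orderOf (a : ZMod ℓ) = p ^ s`. -/
theorem exists_prime_notMem_orderOf_eq_prime_pow {p a : ℕ} (hp : p.Prime) (hp2 : p ≠ 2)
    (ha : 2 ≤ a) (T : Finset ℕ) (s₀ : ℕ) :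
    ∃ ℓ s : ℕ, ℓ.Prime ∧ ℓ ∉ T ∧ ℓ ≠ p ∧ ¬ ℓ ∣ a ∧ s₀ < s ∧ orderOf (a : ZMod ℓ) = p ^ s := by
  set s := max s₀ (T.sup id) + 1 with hs
  obtain ⟨ℓ, hℓ, hℓp, hla, hmod, hord⟩ :=
    exists_prime_orderOf_eq_prime_pow hp hp2 ha (s := s) (by omega)
  refine ⟨ℓ, s, hℓ, fun hmem => ?_, hℓp, hla, by omega, hord⟩
  have h1 : ℓ ≤ T.sup id := Finset.le_sup (f := id) hmem
  have h2 : s < p ^ s := Nat.lt_pow_self hp.one_lt
  have h3 : p ^ s ∣ ℓ - 1 := (Nat.modEq_iff_dvd' hℓ.pos).1 hmod.symm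
  have h4 : p ^ s ≤ ℓ - 1 := Nat.le_of_dvd (by have := hℓ.two_le; omega) h3
  omega

/-- **Artin's lemma, arithmetic form**: for `p` odd, `a ≥ 2` and a finite set `T` there are two
distinct primes `ℓ, ℓ' ∉ T`, not dividing `a`, such that `a` has order `p ^ s` modulo `ℓ` and
`p ^ s'` modulo `ℓ'` with `0 < s < s'`. -/
theorem exists_artin_prime_pair {p a : ℕ} (hp : p.Prime) (hp2 : p ≠ 2) (ha : 2 ≤ a)
    (T : Finset ℕ) :
    ∃ ℓ ℓ' s s' : ℕ, ℓ.Prime ∧ ℓ'.Prime ∧ ℓ ≠ ℓ' ∧ ℓ ∉ T ∧ ℓ' ∉ T ∧ ℓ ≠ p ∧ ℓ' ≠ p ∧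
      ¬ ℓ ∣ a ∧ ¬ ℓ' ∣ a ∧ 0 < s ∧ s < s' ∧
      orderOf (a : ZMod ℓ) = p ^ s ∧ orderOf (a : ZMod ℓ') = p ^ s' := by
  obtain ⟨ℓ, s, hℓ, hT, hℓp, hla, hs, hord⟩ :=
    exists_prime_notMem_orderOf_eq_prime_pow hp hp2 ha T 0
  obtain ⟨ℓ', s', hℓ', hT', hℓ'p, hla', hs', hord'⟩ :=
    exists_prime_notMem_orderOf_eq_prime_pow hp hp2 ha T s
  refine ⟨ℓ, ℓ', s, s', hℓ, hℓ', ?_, hT, hT', hℓp, hℓ'p, hla, hla', hs, hs', hord, hord'⟩
  rintro rfl
  rw [hord] at hord'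
  have := Nat.pow_right_injective hp.two_le hord'
  omega

end Fermat.Agent.Lib.CFT.CyclotomicAux
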