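/-
helper17 (P-CFT, WP Kummer/CyclotomicAux, part B: field side).

For a number field `K` and `m` prime to the discriminant of `K`:
* `finrank_cyclotomic_of_coprime_discr`, `irreducible_cyclotomic_of_coprime_discr` :
  `K` and `ℚ(ζ_m)` are linearly disjoint, i.e. `[K(ζ_m) : K] = φ(m)` and `Φ_m` stays irreducible
  over `K`; hence Mathlib's `IsCyclotomicExtension.autEquivPow L hirr : Gal(L/K) ≃* (ZMod m)ˣ`
  applies (`autEquivPow_spec` : it is the cyclotomic character on ALL `m`-th roots of unity);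
* `isCyclic_gal_of_prime`, `exists_intermediateField_finrank_eq_of_isCyclic`,
  `exists_cyclic_subextension` : for a prime `ℓ` the group is cyclic and for `n ∣ ℓ - 1` there is a
  unique subextension of degree `n`; it is cyclic;
* `autEquivPow_of_isArithFrobAt` : a Frobenius element at a prime `Q ∌ m` of `K(ζ_m)` corresponds to
  `N(Q ∩ K) mod m`; `orderOf_of_isArithFrobAt`, `eq_of_isArithFrobAt`, `inertia_eq_bot`;
* `exists_prime_irreducible_cyclotomic_dvd_orderOf`, `exists_prime_irreducible_cyclotomic_modEq_one`,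
  `exists_prime_cyclic_subextension` : the auxiliary primes packaged for a number field.
-/
import Mathlib
import Fermat.Agent.Lib.CFT.Kummer.CyclotomicAux

set_option autoImplicit false

open Polynomial NumberField IntermediateField

namespace Fermat.Agent.Lib.CFT.CyclotomicAux

/-! ### Linear disjointness of `K` and `ℚ(ζ_m)` -/

/-- The discriminant of the `m`-th cyclotomic field divides a power of `m`. -/
theorem natAbs_discr_cyclotomic_dvd_pow (m : ℕ) [NeZero m] (F : Type*) [Field F] [NumberField F]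
    [IsCyclotomicExtension {m} ℚ F] :
    (NumberField.discr F).natAbs ∣ m ^ m.totient := by
  rw [IsCyclotomicExtension.Rat.natAbs_discr m F]
  exact Nat.div_dvd_of_dvd (Nat.prod_primeFactors_pow_totient_ediv_dvd (NeZero.pos _))

set_option maxHeartbeats 400000 in
/-- If `m` is prime to the discriminant of the number field `K`, then `[K(ζ_m) : K] = φ(m)`. -/
theorem finrank_cyclotomic_of_coprime_discr (K : Type*) [Field K] [NumberField K] (m : ℕ) [NeZero m]
    (h : m.Coprime (NumberField.discr K).natAbs)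
    (L : Type*) [Field L] [Algebra K L] [IsCyclotomicExtension {m} K L] :
    Module.finrank K L = m.totient := by
  have : NumberField L := IsCyclotomicExtension.numberField {m} K L
  have : Algebra.IsIntegral ℚ L := Algebra.IsIntegral.of_finite ℚ L
  have : FiniteDimensional K L := IsCyclotomicExtension.finiteDimensional {m} K L
  obtain ⟨ζ, hζ⟩ := IsCyclotomicExtension.exists_isPrimitiveRoot K L (Set.mem_singleton m) (NeZero.ne m)
  -- the two subfields
  let F₁ : IntermediateField ℚ L := ℚ⟮ζ⟯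
  let F₂ : IntermediateField ℚ L := (IsScalarTower.toAlgHom ℚ K L).fieldRange
  have hcyc : IsCyclotomicExtension {m} ℚ F₁ := hζ.intermediateField_adjoin_isCyclotomicExtension ℚ
  have hgal : IsGalois ℚ F₁ := IsCyclotomicExtension.isGalois {m} ℚ F₁
  have e₂ : K ≃ₐ[ℚ] F₂ := AlgEquiv.ofInjectiveField (IsScalarTower.toAlgHom ℚ K L)
  have hd₂ : NumberField.discr F₂ = NumberField.discr K :=
    (NumberField.discr_eq_discr_of_algEquiv K e₂).symm
  have hcop : IsCoprime (NumberField.discr F₁) (NumberField.discr F₂) := by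
    rw [Int.isCoprime_iff_nat_coprime, hd₂]
    exact Nat.Coprime.coprime_dvd_left (natAbs_discr_cyclotomic_dvd_pow m F₁)
      (Nat.Coprime.pow_left _ h)
  have hdisj : F₁.LinearDisjoint F₂ :=
    NumberField.linearDisjoint_of_isGalois_isCoprime_discr L F₁ F₂ hcop
  have hdisj' : F₁.LinearDisjoint K := by
    have h1 : F₁.toSubalgebra.LinearDisjoint F₂.toSubalgebra :=
      IntermediateField.linearDisjoint_iff'.1 (by convert hdisj; exact Subsingleton.elim _ _)
    exact h1
  have hrank := hdisj'.adjoin_rank_eq_rank_left_of_isAlgebraic (.inl inferInstance)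
  have htop : IntermediateField.adjoin K (F₁ : Set L) = ⊤ := by
    rw [eq_top_iff]
    have h1 : IntermediateField.adjoin K {ζ} = ⊤ := by
      rw [← IntermediateField.toSubalgebra_injective.eq_iff,
        IntermediateField.adjoin_simple_toSubalgebra_of_isAlgebraic
          (Algebra.IsAlgebraic.isAlgebraic ζ),
        IsCyclotomicExtension.adjoin_primitive_root_eq_top hζ, IntermediateField.top_toSubalgebra]
    rw [← h1]
    apply IntermediateField.adjoin.mono
    intro x hx
    rw [Set.mem_singleton_iff] at hx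
    subst hx
    exact IntermediateField.mem_adjoin_simple_self ℚ x
  rw [htop, IntermediateField.rank_top'] at hrank
  have h2 : Module.finrank ℚ F₁ = m.totient :=
    IsCyclotomicExtension.finrank F₁ (cyclotomic.irreducible_rat (NeZero.pos m))
  have := congrArg Cardinal.toNat hrank
  rw [← Module.finrank, ← Module.finrank] at this
  rw [this, h2]

/-- Converse of `IsCyclotomicExtension.finrank`. -/
theorem irreducible_cyclotomic_of_finrank_eq {K L : Type*} [Field K] [Field L] [Algebra K L]
    (m : ℕ) [NeZero m] [IsCyclotomicExtension {m} K L] (h : Module.finrank K L = m.totient) :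
    Irreducible (cyclotomic m K) := by
  have : FiniteDimensional K L := IsCyclotomicExtension.finiteDimensional {m} K L
  obtain ⟨ζ, hζ⟩ := IsCyclotomicExtension.exists_isPrimitiveRoot K L (Set.mem_singleton m) (NeZero.ne m)
  have hint : IsIntegral K ζ := Algebra.IsIntegral.isIntegral ζ
  have hdvd : minpoly K ζ ∣ cyclotomic m K := by
    apply minpoly.dvd
    rw [aeval_def, eval₂_eq_eval_map, map_cyclotomic]
    exact hζ.isRoot_cyclotomic (NeZero.pos m)
  have hdeg : (minpoly K ζ).natDegree = m.totient := by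
    rw [← h, (hζ.powerBasis K).finrank, IsPrimitiveRoot.powerBasis_dim]
  have heq : cyclotomic m K = minpoly K ζ :=
    Polynomial.eq_of_monic_of_dvd_of_natDegree_le (minpoly.monic hint) (cyclotomic.monic m K) hdvd
      (by rw [hdeg, natDegree_cyclotomic])
  rw [heq]
  exact minpoly.irreducible hint

/-- **Linear disjointness.** If `m` is prime to the discriminant of the number field `K`, then the
`m`-th cyclotomic polynomial is irreducible over `K`; so for `L = K(ζ_m)` Mathlib's
`IsCyclotomicExtension.autEquivPow L _ : Gal(L/K) ≃* (ZMod m)ˣ` is available. -/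
theorem irreducible_cyclotomic_of_coprime_discr (K : Type*) [Field K] [NumberField K] (m : ℕ)
    [NeZero m] (h : m.Coprime (NumberField.discr K).natAbs) : Irreducible (cyclotomic m K) :=
  irreducible_cyclotomic_of_finrank_eq (L := CyclotomicField m K) m
    (finrank_cyclotomic_of_coprime_discr K m h (CyclotomicField m K))

/-! ### The Galois group -/

section Spec

variable {K : Type*} [Field K] (m : ℕ) [NeZero m] (L : Type*) [Field L] [Algebra K L]
  [IsCyclotomicExtension {m} K L]

/-- `IsCyclotomicExtension.autEquivPow` is the cyclotomic character: `σ` raises EVERY `m`-th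
root of unity to the power `autEquivPow σ`. -/
theorem autEquivPow_spec (hirr : Irreducible (cyclotomic m K)) (σ : Gal(L/K)) {ζ : L}
    (hζ : ζ ^ m = 1) :
    σ ζ = ζ ^ ((IsCyclotomicExtension.autEquivPow L hirr σ : (ZMod m)ˣ) : ZMod m).val := by
  have hz := IsCyclotomicExtension.zeta_spec m K L
  obtain ⟨j, -, rfl⟩ := hz.eq_pow_of_pow_eq_one hζ
  have h1 : IsCyclotomicExtension.zeta m K L ^
      ((IsCyclotomicExtension.autEquivPow L hirr σ : (ZMod m)ˣ) : ZMod m).val =
      σ (IsCyclotomicExtension.zeta m K L) := hz.autToPow_spec K σ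
  rw [map_pow, ← h1, ← pow_mul, ← pow_mul, mul_comm]

end Spec

/-- For a prime `ℓ` with `Φ_ℓ` irreducible over `K`, `Gal(K(ζ_ℓ)/K)` is cyclic (of order `ℓ - 1`). -/
theorem isCyclic_gal_of_prime {K : Type*} [Field K] (ℓ : ℕ) [Fact ℓ.Prime] (L : Type*) [Field L]
    [Algebra K L] [IsCyclotomicExtension {ℓ} K L] (hirr : Irreducible (cyclotomic ℓ K)) :
    IsCyclic Gal(L/K) :=
  isCyclic_of_surjective (IsCyclotomicExtension.autEquivPow L hirr).symm.toMonoidHom
    (IsCyclotomicExtension.autEquivPow L hirr).symm.surjective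

section CyclicSub

variable {K L : Type*} [Field K] [Field L] [Algebra K L] [FiniteDimensional K L] [IsGalois K L]

/-- In a finite Galois extension with cyclic Galois group there is, for every divisor `n` of the
degree, exactly one intermediate field of degree `n` over the base; it is Galois with cyclic
group. -/
theorem exists_intermediateField_finrank_eq_of_isCyclic [IsCyclic Gal(L/K)] {n : ℕ}
    (hn : n ∣ Module.finrank K L) :
    ∃ F : IntermediateField K L, Module.finrank K F = n ∧ IsGalois K F ∧ IsCyclic Gal(F/K) ∧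
      ∀ F' : IntermediateField K L, Module.finrank K F' = n → F' = F := by
  classical
  obtain ⟨g, hg⟩ := IsCyclic.exists_generator (α := Gal(L/K))
  have hN : Nat.card Gal(L/K) = Module.finrank K L := IsGalois.card_aut_eq_finrank K L
  have hNpos : 0 < Module.finrank K L := Module.finrank_pos
  have hnpos : 0 < n := Nat.pos_of_dvd_of_pos hn hNpos
  have hord : orderOf g = Module.finrank K L := by
    rw [← hN]; exact orderOf_eq_card_of_forall_mem_zpowers hg
  let H : Subgroup Gal(L/K) := Subgroup.zpowers (g ^ n)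
  have hcomm : ∀ a b : Gal(L/K), a * b = b * a := by
    intro a b
    obtain ⟨i, rfl⟩ := Subgroup.mem_zpowers_iff.1 (hg a)
    obtain ⟨j, rfl⟩ := Subgroup.mem_zpowers_iff.1 (hg b)
    rw [← zpow_add, ← zpow_add, add_comm]
  have hnormal : ∀ H' : Subgroup Gal(L/K), H'.Normal := fun H' =>
    ⟨fun x hx y => by rw [hcomm y x, mul_inv_cancel_right]; exact hx⟩
  have : H.Normal := hnormal H
  have hcardH : Nat.card H = Module.finrank K L / n := by
    rw [Nat.card_zpowers, orderOf_pow, hord, Nat.gcd_eq_right hn]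
  have hfin : Module.finrank K (fixedField H) = n := by
    have h1 : Module.finrank (fixedField H) L = Nat.card H := finrank_fixedField_eq_card H
    have h2 := Module.finrank_mul_finrank K (fixedField H) L
    rw [h1, hcardH] at h2
    obtain ⟨c, hc⟩ := hn
    rw [hc, Nat.mul_div_cancel_left c hnpos] at h2
    have hcpos : 0 < c := by
      rcases Nat.eq_zero_or_pos c with h | h
      · rw [h, mul_zero] at hc; omega
      · exact h
    exact Nat.eq_of_mul_eq_mul_right hcpos h2
  refine ⟨fixedField H, hfin, inferInstance, ?_, ?_⟩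
  · have hq : IsCyclic (Gal(L/K) ⧸ H) :=
      isCyclic_of_surjective (QuotientGroup.mk' H) (QuotientGroup.mk'_surjective H)
    exact isCyclic_of_surjective (IsGalois.normalAutEquivQuotient H).toMonoidHom
      (IsGalois.normalAutEquivQuotient H).surjective
  · intro F' hF'
    have hnorm' : F'.fixingSubgroup.Normal := hnormal _
    have hcard' : Nat.card F'.fixingSubgroup = Module.finrank K L / n := by
      have h1 : Nat.card F'.fixingSubgroup = Module.finrank F' L :=
        IsGalois.card_fixingSubgroup_eq_finrank F'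
      have h2 := Module.finrank_mul_finrank K F' L
      rw [hF'] at h2
      rw [h1, ← h2, Nat.mul_div_cancel_left _ hnpos]
    have hidx : F'.fixingSubgroup.index = n := by
      have h3 := Subgroup.card_mul_index F'.fixingSubgroup
      rw [hcard', hN] at h3
      obtain ⟨c, hc⟩ := hn
      rw [hc, Nat.mul_div_cancel_left c hnpos] at h3
      have hcpos : 0 < c := by
        rcases Nat.eq_zero_or_pos c with h | h
        · rw [h, mul_zero] at hc; omega
        · exact h
      rw [mul_comm n c] at h3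
      exact Nat.eq_of_mul_eq_mul_left hcpos h3
    have hmem : g ^ n ∈ F'.fixingSubgroup := by
      rw [← hidx]; exact Subgroup.pow_index_mem _ g
    have hle : H ≤ F'.fixingSubgroup := (Subgroup.zpowers_le).2 hmem
    have hHeq : H = F'.fixingSubgroup :=
      Subgroup.eq_of_le_of_card_ge hle (by rw [hcardH, hcard'])
    rw [hHeq, IsGalois.fixedField_fixingSubgroup]

end CyclicSub

/-- For a prime `ℓ` with `Φ_ℓ` irreducible over `K` and `n ∣ ℓ - 1`, the field `K(ζ_ℓ)` contains
exactly one subextension of degree `n` over `K`; it is cyclic. -/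
theorem exists_cyclic_subextension {K : Type*} [Field K] (ℓ : ℕ) [Fact ℓ.Prime] (L : Type*)
    [Field L] [Algebra K L] [IsCyclotomicExtension {ℓ} K L] (hirr : Irreducible (cyclotomic ℓ K))
    {n : ℕ} (hn : n ∣ ℓ - 1) :
    ∃ F : IntermediateField K L, Module.finrank K F = n ∧ IsGalois K F ∧ IsCyclic Gal(F/K) ∧
      ∀ F' : IntermediateField K L, Module.finrank K F' = n → F' = F := by
  have : FiniteDimensional K L := IsCyclotomicExtension.finiteDimensional {ℓ} K L
  have : IsGalois K L := IsCyclotomicExtension.isGalois {ℓ} K L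
  have : IsCyclic Gal(L/K) := isCyclic_gal_of_prime ℓ L hirr
  apply exists_intermediateField_finrank_eq_of_isCyclic
  rw [IsCyclotomicExtension.finrank L hirr, Nat.totient_prime Fact.out]
  exact hn

/-! ### Frobenius elements -/

section Frob

variable {K : Type*} [Field K] [NumberField K] (m : ℕ) [NeZero m] (L : Type*) [Field L]
  [NumberField L] [Algebra K L] [IsGalois K L]

/-- A Frobenius element at a prime `Q` not containing `m` raises every `m`-th root of
unity to the power `N(Q ∩ K)`. -/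
theorem apply_eq_pow_card_of_isArithFrobAt {σ : Gal(L/K)} {Q : Ideal (𝓞 L)}
    (hQ : (m : 𝓞 L) ∉ Q) (hσ : IsArithFrobAt (𝓞 K) σ Q) {ζ : L} (hζ : ζ ^ m = 1) :
    σ ζ = ζ ^ Nat.card (𝓞 K ⧸ Q.under (𝓞 K)) := by
  have hint : IsIntegral ℤ ζ := ⟨X ^ m - 1, monic_X_pow_sub_C 1 (NeZero.ne m), by simp [hζ]⟩
  let ζ' : 𝓞 L := ⟨ζ, hint⟩
  have hζ' : ζ' ^ m = 1 := by
    apply RingOfIntegers.ext
    show algebraMap (𝓞 L) L (ζ' ^ m) = algebraMap (𝓞 L) L 1
    rw [map_pow, map_one]
    exact hζ
  have h1 := AlgHom.IsArithFrobAt.apply_of_pow_eq_one hσ hζ' hQ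
  have h2 : algebraMap (𝓞 L) L (σ • ζ') =
      algebraMap (𝓞 L) L (ζ' ^ Nat.card (𝓞 K ⧸ Q.under (𝓞 K))) := congrArg (algebraMap (𝓞 L) L) h1
  rw [algebraMap.smul', map_pow] at h2
  exact h2

variable [IsCyclotomicExtension {m} K L]

/-- **Frobenius in cyclotomic extensions**: under `Gal(K(ζ_m)/K) ≃ (ZMod m)ˣ` a Frobenius element at
a prime `Q` not containing `m` corresponds to the class of the absolute norm of `Q ∩ K`. -/
theorem autEquivPow_of_isArithFrobAt (hirr : Irreducible (cyclotomic m K)) {σ : Gal(L/K)}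
    {Q : Ideal (𝓞 L)} (hQ : (m : 𝓞 L) ∉ Q) (hσ : IsArithFrobAt (𝓞 K) σ Q) :
    ((IsCyclotomicExtension.autEquivPow L hirr σ : (ZMod m)ˣ) : ZMod m) =
      (Nat.card (𝓞 K ⧸ Q.under (𝓞 K)) : ZMod m) := by
  have hz := IsCyclotomicExtension.zeta_spec m K L
  have h1 := autEquivPow_spec m L hirr σ hz.pow_eq_one
  have h2 := apply_eq_pow_card_of_isArithFrobAt m L hQ hσ hz.pow_eq_one
  rw [h1] at h2
  rw [← pow_mod_orderOf _ (Nat.card _), ← hz.eq_orderOf] at h2
  have h3 := hz.pow_inj (ZMod.val_lt _) (Nat.mod_lt _ (NeZero.pos m)) h2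
  have h4 := congrArg (fun k : ℕ => (k : ZMod m)) h3
  simpa using h4

/-- The order of a Frobenius element of `K(ζ_m)/K` at `Q ∌ m` is the multiplicative order of
`N(Q ∩ K)` modulo `m`. -/
theorem orderOf_of_isArithFrobAt (hirr : Irreducible (cyclotomic m K)) {σ : Gal(L/K)}
    {Q : Ideal (𝓞 L)} (hQ : (m : 𝓞 L) ∉ Q) (hσ : IsArithFrobAt (𝓞 K) σ Q) :
    orderOf σ = orderOf ((Nat.card (𝓞 K ⧸ Q.under (𝓞 K)) : ZMod m)) := by
  rw [← autEquivPow_of_isArithFrobAt m L hirr hQ hσ, orderOf_units,
    MulEquiv.orderOf_eq]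

/-- Two Frobenius elements of `K(ζ_m)/K` at a prime not containing `m` are equal. -/
theorem eq_of_isArithFrobAt {σ τ : Gal(L/K)} {Q : Ideal (𝓞 L)} (hQ : (m : 𝓞 L) ∉ Q)
    (hσ : IsArithFrobAt (𝓞 K) σ Q) (hτ : IsArithFrobAt (𝓞 K) τ Q) : σ = τ := by
  have hz := IsCyclotomicExtension.zeta_spec m K L
  apply hz.autToPow_injective K
  apply Units.ext
  have h1 := hz.autToPow_spec K σ
  have h2 := hz.autToPow_spec K τ
  rw [apply_eq_pow_card_of_isArithFrobAt m L hQ hσ hz.pow_eq_one] at h1
  rw [apply_eq_pow_card_of_isArithFrobAt m L hQ hτ hz.pow_eq_one, ← h1] at h2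
  have h3 := hz.pow_inj (ZMod.val_lt _) (ZMod.val_lt _) h2
  exact (ZMod.val_injective m h3).symm

/-- `K(ζ_m)/K` is unramified at every nonzero prime not containing `m`. -/
theorem inertia_eq_bot {Q : Ideal (𝓞 L)} [Q.IsPrime] (hQ0 : Q ≠ ⊥) (hQ : (m : 𝓞 L) ∉ Q) :
    Ideal.inertia Gal(L/K) Q = ⊥ := by
  have : Finite (𝓞 L ⧸ Q) := Ideal.finiteQuotientOfFreeOfNeBot Q hQ0
  obtain ⟨σ, hσ⟩ := IsArithFrobAt.exists_of_isInvariant (𝓞 K) Gal(L/K) Q
  rw [eq_bot_iff]
  intro τ hτ
  rw [Subgroup.mem_bot]
  have hτσ : IsArithFrobAt (𝓞 K) (τ * σ) Q := by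
    intro x
    have h1 := hσ x
    have h2 := hτ (σ • x)
    have h3 := Q.add_mem h2 h1
    simp only [MulSemiringAction.toAlgHom_apply] at h1 h3 ⊢
    rw [mul_smul]
    convert h3 using 1
    ring
  have := eq_of_isArithFrobAt m L hQ hτσ hσ
  exact mul_eq_right.mp this

end Frob

/-! ### Auxiliary primes for a number field -/

section Aux

variable (K : Type*) [Field K] [NumberField K]

/-- Deliverable (1) for a number field: for `a ≥ 2`, `n ≥ 1` and a finite set `T` there is a prime
`ℓ ∉ T`, `ℓ ∤ a`, prime to the discriminant of `K` (so `Φ_ℓ` is irreducible over `K` and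
`Gal(K(ζ_ℓ)/K) = (ZMod ℓ)ˣ`), such that `n` divides the order of `a` modulo `ℓ`. -/
theorem exists_prime_irreducible_cyclotomic_dvd_orderOf {a n : ℕ} (ha : 2 ≤ a) (hn : n ≠ 0)
    (T : Finset ℕ) :
    ∃ ℓ : ℕ, ℓ.Prime ∧ ℓ ∉ T ∧ ¬ ℓ ∣ a ∧ ℓ.Coprime (NumberField.discr K).natAbs ∧
      Irreducible (cyclotomic ℓ K) ∧ n ∣ orderOf (a : ZMod ℓ) := by
  obtain ⟨ℓ, hℓ, hT, hla, hord⟩ :=
    exists_prime_notMem_dvd_orderOf ha hn (T ∪ (NumberField.discr K).natAbs.primeFactors)
  have hcop : ℓ.Coprime (NumberField.discr K).natAbs := by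
    rw [hℓ.coprime_iff_not_dvd]
    intro hdvd
    apply hT
    rw [Finset.mem_union]
    right
    rw [Nat.mem_primeFactors]
    exact ⟨hℓ, hdvd, Int.natAbs_ne_zero.2 (NumberField.discr_ne_zero K)⟩
  have : NeZero ℓ := ⟨hℓ.ne_zero⟩
  exact ⟨ℓ, hℓ, fun h => hT (Finset.mem_union_left _ h), hla, hcop,
    irreducible_cyclotomic_of_coprime_discr K ℓ hcop, hord⟩

/-- Deliverable (2) for a number field: a prime `ℓ ≡ 1 (mod n)` outside `T`, prime to the
discriminant of `K`. -/
theorem exists_prime_irreducible_cyclotomic_modEq_one {n : ℕ} (hn : n ≠ 0) (T : Finset ℕ) :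
    ∃ ℓ : ℕ, ℓ.Prime ∧ ℓ ∉ T ∧ ℓ.Coprime (NumberField.discr K).natAbs ∧
      Irreducible (cyclotomic ℓ K) ∧ ℓ ≡ 1 [MOD n] := by
  obtain ⟨ℓ, hℓ, hT, h1⟩ :=
    exists_prime_notMem_modEq_one hn (T ∪ (NumberField.discr K).natAbs.primeFactors)
  have hcop : ℓ.Coprime (NumberField.discr K).natAbs := by
    rw [hℓ.coprime_iff_not_dvd]
    intro hdvd
    apply hT
    rw [Finset.mem_union]
    right
    rw [Nat.mem_primeFactors]
    exact ⟨hℓ, hdvd, Int.natAbs_ne_zero.2 (NumberField.discr_ne_zero K)⟩
  have : NeZero ℓ := ⟨hℓ.ne_zero⟩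
  exact ⟨ℓ, hℓ, fun h => hT (Finset.mem_union_left _ h), hcop,
    irreducible_cyclotomic_of_coprime_discr K ℓ hcop, h1⟩

/-- Cyclic cyclotomic extensions of every degree: for `n ≥ 1` and a finite set `T` there is a prime
`ℓ ∉ T` such that `K(ζ_ℓ)` contains a (unique) subextension `F/K` that is cyclic of degree `n`. -/
theorem exists_prime_cyclic_subextension {n : ℕ} (hn : n ≠ 0) (T : Finset ℕ) :
    ∃ ℓ : ℕ, ℓ.Prime ∧ ℓ ∉ T ∧ Irreducible (cyclotomic ℓ K) ∧
      ∀ (L : Type*) [Field L] [Algebra K L] [IsCyclotomicExtension {ℓ} K L],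
        ∃ F : IntermediateField K L, Module.finrank K F = n ∧ IsGalois K F ∧ IsCyclic Gal(F/K) ∧
          ∀ F' : IntermediateField K L, Module.finrank K F' = n → F' = F := by
  obtain ⟨ℓ, hℓ, hT, -, hirr, h1⟩ := exists_prime_irreducible_cyclotomic_modEq_one K hn T
  refine ⟨ℓ, hℓ, hT, hirr, ?_⟩
  intro L _ _ _
  have : Fact ℓ.Prime := ⟨hℓ⟩
  exact exists_cyclic_subextension ℓ L hirr ((Nat.modEq_iff_dvd' hℓ.pos).1 h1.symm)

end Aux

end Fermat.Agent.Lib.CFT.CyclotomicAux
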