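import Mathlib

/-!
# P-CFT, WP Kummer/Basic (helper25): exponent-`p` Kummer theory

`F` a field containing a primitive `p`-th root of unity (`p` prime), `E/F` a field extension.

* `powSubgroup F p`   : the subgroup of `p`-th powers of `Fˣ`.
* `kummerGroup F E p` : the subgroup of those `d : Fˣ` which are `p`-th powers in `E`.
* `kummerPairing hζ`  : `Gal(E/F) →* (kummerGroup F E p →* rootsOfUnity p F)`,
  `⟨σ, d⟩ = σ x / x` for any `x` with `x ^ p = d`.
-/

set_option autoImplicit false

namespace Fermat.Agent.Lib.CFT.Kummer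

open Polynomial IntermediateField

section Defs

variable (F E : Type*) [Field F] [Field E] [Algebra F E] (p : ℕ)

/-- The subgroup of `p`-th powers in `Fˣ`. -/
def powSubgroup : Subgroup Fˣ := (powMonoidHom p : Fˣ →* Fˣ).range

theorem mem_powSubgroup {d : Fˣ} : d ∈ powSubgroup F p ↔ ∃ y : Fˣ, y ^ p = d := Iff.rfl

/-- `kummerGroup F E p`: the elements of `Fˣ` that are `p`-th powers in `E`. -/
def kummerGroup : Subgroup Fˣ where
  carrier := {d | ∃ x : E, x ^ p = algebraMap F E d}
  one_mem' := ⟨1, by simp⟩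
  mul_mem' := by
    rintro a b ⟨x, hx⟩ ⟨y, hy⟩
    exact ⟨x * y, by simp [mul_pow, hx, hy]⟩
  inv_mem' := by
    rintro a ⟨x, hx⟩
    exact ⟨x⁻¹, by simp [inv_pow, hx]⟩

variable {F E p}

theorem mem_kummerGroup {d : Fˣ} :
    d ∈ kummerGroup F E p ↔ ∃ x : E, x ^ p = algebraMap F E d := Iff.rfl

theorem powSubgroup_le_kummerGroup : powSubgroup F p ≤ kummerGroup F E p := by
  rintro d ⟨y, rfl⟩
  exact ⟨algebraMap F E y, by simp⟩

end Defs

section Pairing

variable {F E : Type*} [Field F] [Field E] [Algebra F E] {p : ℕ} [NeZero p]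
  (hζ : (primitiveRoots p F).Nonempty)

include hζ in
/-- Every `p`-th root of unity of `E` comes from `F`. -/
theorem exists_rootsOfUnity_eq {η : E} (h : η ^ p = 1) :
    ∃ ζ : rootsOfUnity p F, algebraMap F E ((ζ : Fˣ) : F) = η := by
  refine ⟨(rootsOfUnityEquivOfPrimitiveRoots (algebraMap F E).injective hζ).symm
    (rootsOfUnity.mkOfPowEq η h), ?_⟩
  rw [rootsOfUnityEquivOfPrimitiveRoots_symm_apply, rootsOfUnity.coe_mkOfPowEq]

theorem root_ne_zero {d : Fˣ} {x : E} (hx : x ^ p = algebraMap F E d) : x ≠ 0 := by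
  rintro rfl
  rw [zero_pow (NeZero.ne p)] at hx
  exact (map_ne_zero (algebraMap F E)).mpr d.ne_zero hx.symm

include hζ in
theorem existsUnique_pairing (σ : E ≃ₐ[F] E) {d : Fˣ} (hd : d ∈ kummerGroup F E p) :
    ∃! ζ : rootsOfUnity p F,
      ∀ x : E, x ^ p = algebraMap F E d → σ x = algebraMap F E ((ζ : Fˣ) : F) * x := by
  obtain ⟨x₀, hx₀⟩ := hd
  have hx₀0 : x₀ ≠ 0 := root_ne_zero hx₀
  have h1 : (σ x₀ / x₀) ^ p = 1 := by
    rw [div_pow, ← map_pow, hx₀, AlgEquiv.commutes, div_self]
    exact (map_ne_zero (algebraMap F E)).mpr d.ne_zero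
  obtain ⟨ζ, hζ'⟩ := exists_rootsOfUnity_eq hζ h1
  refine ⟨ζ, fun x hx => ?_, fun ζ' h' => ?_⟩
  · have h2 : (x / x₀) ^ p = 1 := by
      rw [div_pow, hx, hx₀, div_self]
      exact (map_ne_zero (algebraMap F E)).mpr d.ne_zero
    obtain ⟨η, hη⟩ := exists_rootsOfUnity_eq hζ h2
    have hx' : x = algebraMap F E ((η : Fˣ) : F) * x₀ := by
      rw [hη, div_mul_cancel₀ _ hx₀0]
    rw [hx', map_mul, AlgEquiv.commutes, hζ']
    field_simp
  · have := h' x₀ hx₀
    apply Subtype.ext
    apply Units.ext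
    apply (algebraMap F E).injective
    rw [hζ', this, mul_div_cancel_right₀ _ hx₀0]

/-- The Kummer pairing as a plain function (junk value `1` outside `kummerGroup`). -/
noncomputable def pairingFun (σ : E ≃ₐ[F] E) (d : kummerGroup F E p) : rootsOfUnity p F :=
  (existsUnique_pairing hζ σ d.2).exists.choose

theorem pairingFun_spec (σ : E ≃ₐ[F] E) (d : kummerGroup F E p) {x : E}
    (hx : x ^ p = algebraMap F E (d : Fˣ)) :
    σ x = algebraMap F E ((pairingFun hζ σ d : Fˣ) : F) * x :=
  (existsUnique_pairing hζ σ d.2).exists.choose_spec x hx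

theorem pairingFun_eq_of_spec (σ : E ≃ₐ[F] E) (d : kummerGroup F E p) {ζ : rootsOfUnity p F}
    {x : E} (hx : x ^ p = algebraMap F E (d : Fˣ))
    (h : σ x = algebraMap F E ((ζ : Fˣ) : F) * x) : pairingFun hζ σ d = ζ := by
  have hx0 : x ≠ 0 := root_ne_zero hx
  have h' := pairingFun_spec hζ σ d hx
  rw [h] at h'
  apply Subtype.ext
  apply Units.ext
  apply (algebraMap F E).injective
  exact (mul_right_cancel₀ hx0 h').symm

/-- The Kummer pairing `Gal(E/F) × kummerGroup F E p → μ_p(F)`, `⟨σ, d⟩ = σ x / x` for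
`x ^ p = d`. -/
noncomputable def kummerPairing :
    (E ≃ₐ[F] E) →* (kummerGroup F E p →* rootsOfUnity p F) :=
  MonoidHom.mk'
    (fun σ => MonoidHom.mk' (pairingFun hζ σ) (by
      intro d d'
      obtain ⟨x, hx⟩ := d.2
      obtain ⟨y, hy⟩ := d'.2
      refine pairingFun_eq_of_spec hζ σ (d * d') (x := x * y) ?_ ?_
      · simp [mul_pow, hx, hy]
      · rw [map_mul, pairingFun_spec hζ σ d hx, pairingFun_spec hζ σ d' hy]
        simp only [Subgroup.coe_mul, Units.val_mul, map_mul]
        ring))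
    (by
      intro σ τ
      ext d : 1
      obtain ⟨x, hx⟩ := d.2
      simp only [MonoidHom.mk'_apply, MonoidHom.mul_apply]
      refine pairingFun_eq_of_spec hζ (σ * τ) d hx ?_
      rw [AlgEquiv.mul_apply, pairingFun_spec hζ τ d hx, map_mul, AlgEquiv.commutes,
        pairingFun_spec hζ σ d hx]
      simp only [Subgroup.coe_mul, Units.val_mul, map_mul]
      ring)

@[simp]
theorem kummerPairing_apply (σ : E ≃ₐ[F] E) (d : kummerGroup F E p) :
    kummerPairing hζ σ d = pairingFun hζ σ d := rfl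

/-- Defining property of the Kummer pairing. -/
theorem kummerPairing_spec (σ : E ≃ₐ[F] E) (d : kummerGroup F E p) {x : E}
    (hx : x ^ p = algebraMap F E (d : Fˣ)) :
    σ x = algebraMap F E ((kummerPairing hζ σ d : Fˣ) : F) * x :=
  pairingFun_spec hζ σ d hx

theorem kummerPairing_eq_of_spec (σ : E ≃ₐ[F] E) (d : kummerGroup F E p)
    {ζ : rootsOfUnity p F} {x : E} (hx : x ^ p = algebraMap F E (d : Fˣ))
    (h : σ x = algebraMap F E ((ζ : Fˣ) : F) * x) : kummerPairing hζ σ d = ζ :=
  pairingFun_eq_of_spec hζ σ d hx h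

/-- `⟨σ, d⟩ = 1` iff `σ` fixes one (equivalently every) `p`-th root of `d`. -/
theorem kummerPairing_eq_one_iff (σ : E ≃ₐ[F] E) (d : kummerGroup F E p) {x : E}
    (hx : x ^ p = algebraMap F E (d : Fˣ)) : kummerPairing hζ σ d = 1 ↔ σ x = x := by
  constructor
  · intro h
    rw [kummerPairing_spec hζ σ d hx, h]
    simp
  · intro h
    refine kummerPairing_eq_of_spec hζ σ d hx ?_
    simp [h]

end Pairing

section Generated

variable {F E : Type*} [Field F] [Field E] [Algebra F E] {p : ℕ} [NeZero p]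

/-- The set of `p`-th roots in `E` of elements of `D`. -/
def rootsOf (E : Type*) [Field E] [Algebra F E] (p : ℕ) (D : Subgroup Fˣ) : Set E :=
  {x | ∃ d ∈ D, x ^ p = algebraMap F E d}

/-- `E` is generated over `F` by the `p`-th roots of elements of `D`. -/
def IsGeneratedBy (E : Type*) [Field E] [Algebra F E] (p : ℕ) (D : Subgroup Fˣ) : Prop :=
  adjoin F (rootsOf E p D) = ⊤

variable (hζ : (primitiveRoots p F).Nonempty)

include hζ in
theorem isIntegral_and_splits_of_pow_eq {d : Fˣ} {x : E} (hx : x ^ p = algebraMap F E d) :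
    IsIntegral F x ∧ ((minpoly F x).map (algebraMap F E)).Splits ∧ IsSeparable F x := by
  obtain ⟨ζ, hζ'⟩ := hζ
  rw [mem_primitiveRoots (NeZero.pos p)] at hζ'
  have hroot : aeval x (X ^ p - C (d : F)) = 0 := by
    simp [hx]
  have hmonic : (X ^ p - C (d : F)).Monic := monic_X_pow_sub_C _ (NeZero.ne p)
  have hint : IsIntegral F x := ⟨_, hmonic, by simpa [aeval_def] using hroot⟩
  have hdvd : minpoly F x ∣ X ^ p - C (d : F) := minpoly.dvd F x hroot
  have hsplit : ((X ^ p - C (d : F)).map (algebraMap F E)).Splits := by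
    have := X_pow_sub_C_splits_of_isPrimitiveRoot
      (hζ'.map_of_injective (algebraMap F E).injective) hx
    simpa using this
  have hsep : (X ^ p - C (d : F)).Separable :=
    separable_X_pow_sub_C (d : F) (hζ'.neZero').out d.ne_zero
  refine ⟨hint, ?_, hsep.of_dvd hdvd⟩
  exact Splits.of_dvd hsplit (Polynomial.map_ne_zero hmonic.ne_zero)
    (Polynomial.map_dvd _ hdvd)

include hζ in
/-- An extension generated by `p`-th roots of elements of `F` is Galois. -/
theorem isGalois_of_isGeneratedBy {D : Subgroup Fˣ} (h : IsGeneratedBy E p D) :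
    IsGalois F E := by
  have hsep : Algebra.IsSeparable F E := by
    rw [← isSeparable_top, ← h, isSeparable_adjoin_iff_isSeparable]
    rintro x ⟨d, -, hx⟩
    exact (isIntegral_and_splits_of_pow_eq hζ hx).2.2
  have hnorm : Normal F E := by
    refine normal_iff.mpr fun x => ⟨Algebra.IsSeparable.isIntegral F x, ?_⟩
    have hx : x ∈ adjoin F (rootsOf E p D) := h ▸ mem_top
    refine splits_of_mem_adjoin F E (fun y hy => ?_) hx
    obtain ⟨d, -, hy⟩ := hy
    exact ⟨(isIntegral_and_splits_of_pow_eq hζ hy).1, (isIntegral_and_splits_of_pow_eq hζ hy).2.1⟩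
  exact ⟨⟩

/-- Left nondegeneracy: if `E` is generated by the `p`-th roots of `D` and `σ` pairs trivially
with all elements of `D`, then `σ = 1`. -/
theorem eq_one_of_forall_kummerPairing_eq_one {D : Subgroup Fˣ} (h : IsGeneratedBy E p D)
    (σ : E ≃ₐ[F] E)
    (hσ : ∀ d : kummerGroup F E p, (d : Fˣ) ∈ D → kummerPairing hζ σ d = 1) : σ = 1 := by
  ext x
  have hx : x ∈ adjoin F (rootsOf E p D) := h ▸ mem_top
  rw [AlgEquiv.one_apply]
  induction hx using adjoin_induction with
  | mem y hy =>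
    obtain ⟨d, hd, hy⟩ := hy
    exact (kummerPairing_eq_one_iff hζ σ ⟨d, ⟨y, hy⟩⟩ hy).mp (hσ ⟨d, ⟨y, hy⟩⟩ hd)
  | algebraMap a => exact σ.commutes a
  | add a b _ _ ha hb => rw [map_add, ha, hb]
  | inv a _ ha => rw [map_inv₀, ha]
  | mul a b _ _ ha hb => rw [map_mul, ha, hb]

/-- Right nondegeneracy: if `E/F` is Galois and `d` pairs trivially with all of `Gal(E/F)`,
then `d` is a `p`-th power in `F`. -/
theorem mem_powSubgroup_of_forall_kummerPairing_eq_one [IsGalois F E]
    (d : kummerGroup F E p) (hd : ∀ σ : E ≃ₐ[F] E, kummerPairing hζ σ d = 1) :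
    (d : Fˣ) ∈ powSubgroup F p := by
  obtain ⟨x, hx⟩ := d.2
  have hfix : ∀ σ : E ≃ₐ[F] E, σ x = x := fun σ =>
    (kummerPairing_eq_one_iff hζ σ d hx).mp (hd σ)
  obtain ⟨y, rfl⟩ : x ∈ Set.range (algebraMap F E) := by
    exact (InfiniteGalois.mem_range_algebraMap_iff_fixed x).mpr hfix
  have hy0 : y ≠ 0 := by
    rintro rfl
    exact root_ne_zero hx (map_zero _)
  refine ⟨Units.mk0 y hy0, ?_⟩
  apply Units.ext
  apply (algebraMap F E).injective
  simpa using hx

theorem kummerPairing_eq_one_of_mem_powSubgroup (σ : E ≃ₐ[F] E) (d : kummerGroup F E p)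
    (hd : (d : Fˣ) ∈ powSubgroup F p) : kummerPairing hζ σ d = 1 := by
  obtain ⟨y, hy⟩ := hd
  have hx : (algebraMap F E (y : F)) ^ p = algebraMap F E ((d : Fˣ) : F) := by
    rw [← map_pow, ← Units.val_pow_eq_pow_val]
    exact congrArg _ (congrArg _ hy)
  exact (kummerPairing_eq_one_iff hζ σ d hx).mpr (σ.commutes _)

end Generated

section Card

variable {F : Type*} [Field F] {p : ℕ} [NeZero p]

theorem hasEnoughRootsOfUnity_of_primitiveRoots (hζ : (primitiveRoots p F).Nonempty) :
    HasEnoughRootsOfUnity F p := by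
  obtain ⟨ζ, hζ'⟩ := hζ
  rw [mem_primitiveRoots (NeZero.pos p)] at hζ'
  exact ⟨⟨ζ, hζ'⟩, inferInstance⟩

/-- For a finite commutative group `X` killed by `p`, `|Hom(X, μ_p(F))| = |X|`. -/
theorem card_monoidHom_rootsOfUnity (hζ : (primitiveRoots p F).Nonempty)
    (X : Type*) [Group X] [Finite X] (hcomm : ∀ a b : X, a * b = b * a)
    (hexp : ∀ a : X, a ^ p = 1) :
    Nat.card (X →* rootsOfUnity p F) = Nat.card X := by
  let _ : CommGroup X := { ‹Group X› with mul_comm := hcomm }
  have h1 : HasEnoughRootsOfUnity F p := hasEnoughRootsOfUnity_of_primitiveRoots hζ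
  have hdvd : Monoid.exponent X ∣ p := Monoid.exponent_dvd_of_forall_pow_eq_one hexp
  have h2 : HasEnoughRootsOfUnity F (Monoid.exponent X) := HasEnoughRootsOfUnity.of_dvd F hdvd
  rw [← CommGroup.card_monoidHom_of_hasEnoughRootsOfUnity X F]
  refine Nat.card_congr
    { toFun := fun f => (Subgroup.subtype _).comp f
      invFun := fun g => g.codRestrict _ (fun x => by
        rw [mem_rootsOfUnity, ← map_pow, hexp, map_one])
      left_inv := fun f => by ext; rfl
      right_inv := fun g => by ext; rfl }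

/-- A pairing into `μ_p(F)` between a finite group `A` and a commutative group `B` killed by `p`
which is nondegenerate on both sides is perfect. -/
theorem perfect_of_nondegenerate (hζ : (primitiveRoots p F).Nonempty)
    {A B : Type*} [Group A] [Finite A] [Group B]
    (hBcomm : ∀ b b' : B, b * b' = b' * b) (hBexp : ∀ b : B, b ^ p = 1)
    (φ : A →* B →* rootsOfUnity p F)
    (hl : ∀ a, (∀ b, φ a b = 1) → a = 1) (hr : ∀ b, (∀ a, φ a b = 1) → b = 1) :
    Finite B ∧ Nat.card A = Nat.card B ∧ (∀ a a' : A, a * a' = a' * a) ∧ (∀ a : A, a ^ p = 1) ∧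
      Function.Bijective φ ∧ Function.Bijective φ.flip := by
  have hμ : ∀ ζ : rootsOfUnity p F, ζ ^ p = 1 := fun ζ => by
    apply Subtype.ext
    simpa using (mem_rootsOfUnity _ _).mp ζ.2
  have hφ : Function.Injective φ := (injective_iff_map_eq_one φ).mpr fun a ha =>
    hl a fun b => by rw [ha]; rfl
  have hφ' : Function.Injective φ.flip := (injective_iff_map_eq_one φ.flip).mpr fun b hb =>
    hr b fun a => by
      have := congrArg (fun f => f a) hb
      simpa using this
  have hAcomm : ∀ a a' : A, a * a' = a' * a := fun a a' => hφ <| by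
    rw [map_mul, map_mul, mul_comm]
  have hAexp : ∀ a : A, a ^ p = 1 := fun a => hφ <| by
    rw [map_pow, map_one]
    ext b : 1
    rw [MonoidHom.pow_apply, hμ, MonoidHom.one_apply]
  have finA : Finite (A →* rootsOfUnity p F) :=
    Finite.of_injective (fun f => (f : A → rootsOfUnity p F)) DFunLike.coe_injective
  have hBfin : Finite B := Finite.of_injective _ hφ'
  have finB : Finite (B →* rootsOfUnity p F) :=
    Finite.of_injective (fun f => (f : B → rootsOfUnity p F)) DFunLike.coe_injective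
  have c1 : Nat.card A ≤ Nat.card B := by
    rw [← card_monoidHom_rootsOfUnity hζ B hBcomm hBexp]
    exact Nat.card_le_card_of_injective _ hφ
  have c2 : Nat.card B ≤ Nat.card A := by
    rw [← card_monoidHom_rootsOfUnity hζ A hAcomm hAexp]
    exact Nat.card_le_card_of_injective _ hφ'
  refine ⟨hBfin, le_antisymm c1 c2, hAcomm, hAexp, ?_, ?_⟩
  · refine (Nat.bijective_iff_injective_and_card _).mpr ⟨hφ, ?_⟩
    rw [card_monoidHom_rootsOfUnity hζ B hBcomm hBexp]
    exact le_antisymm c1 c2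
  · refine (Nat.bijective_iff_injective_and_card _).mpr ⟨hφ', ?_⟩
    rw [card_monoidHom_rootsOfUnity hζ A hAcomm hAexp]
    exact le_antisymm c2 c1

end Card

section Main

variable {F E : Type*} [Field F] [Field E] [Algebra F E] {p : ℕ} [NeZero p]
  (hζ : (primitiveRoots p F).Nonempty)

/-- The Kummer pairing on the quotient `K' / (K' ∩ Fˣᵖ)`, for `K' ≤ kummerGroup F E p`. -/
noncomputable def kummerPairingQuot {K' : Subgroup Fˣ} (hK' : K' ≤ kummerGroup F E p) :
    K' ⧸ (powSubgroup F p).subgroupOf K' →* ((E ≃ₐ[F] E) →* rootsOfUnity p F) :=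
  QuotientGroup.lift _ ((kummerPairing hζ).flip.comp (Subgroup.inclusion hK')) (by
    intro d hd
    refine MonoidHom.ext fun σ => ?_
    have hd' : ((Subgroup.inclusion hK' d : kummerGroup F E p) : Fˣ) ∈ powSubgroup F p :=
      Subgroup.mem_subgroupOf.mp hd
    exact kummerPairing_eq_one_of_mem_powSubgroup hζ σ _ hd')

@[simp]
theorem kummerPairingQuot_mk {K' : Subgroup Fˣ} (hK' : K' ≤ kummerGroup F E p) (d : K')
    (σ : E ≃ₐ[F] E) :
    kummerPairingQuot hζ hK' (QuotientGroup.mk d) σ =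
      kummerPairing hζ σ (Subgroup.inclusion hK' d) := rfl

/-- **Main theorem of exponent-`p` Kummer theory (finite level).** -/
theorem kummer_perfect [FiniteDimensional F E] {D K' : Subgroup Fˣ}
    (hgen : IsGeneratedBy E p D) (hDK : D ≤ K') (hK' : K' ≤ kummerGroup F E p) :
    Module.finrank F E = (powSubgroup F p).relIndex K' ∧
      (∀ σ τ : E ≃ₐ[F] E, σ * τ = τ * σ) ∧ (∀ σ : E ≃ₐ[F] E, σ ^ p = 1) ∧
      Function.Bijective (kummerPairingQuot hζ hK') ∧
      Function.Bijective (kummerPairingQuot hζ hK').flip := by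
  have hgal : IsGalois F E := isGalois_of_isGeneratedBy hζ hgen
  have hl : ∀ σ : E ≃ₐ[F] E,
      (∀ q, (kummerPairingQuot hζ hK').flip σ q = 1) → σ = 1 := by
    intro σ hσ
    refine eq_one_of_forall_kummerPairing_eq_one hζ hgen σ fun d hd => ?_
    exact hσ (QuotientGroup.mk ⟨d, hDK hd⟩)
  have hr : ∀ q, (∀ σ : E ≃ₐ[F] E, (kummerPairingQuot hζ hK').flip σ q = 1) → q = 1 := by
    intro q
    induction q using QuotientGroup.induction_on with
    | H d =>
      intro hd
      rw [QuotientGroup.eq_one_iff, Subgroup.mem_subgroupOf]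
      exact mem_powSubgroup_of_forall_kummerPairing_eq_one hζ (Subgroup.inclusion hK' d) hd
  have hexp : ∀ q : K' ⧸ (powSubgroup F p).subgroupOf K', q ^ p = 1 := by
    intro q
    induction q using QuotientGroup.induction_on with
    | H d =>
      rw [← QuotientGroup.mk_pow, QuotientGroup.eq_one_iff, Subgroup.mem_subgroupOf]
      exact ⟨(d : Fˣ), by simp⟩
  obtain ⟨_, hcard, hcomm, hpow, hb1, hb2⟩ :=
    perfect_of_nondegenerate hζ (fun b b' => mul_comm b b') hexp
      (kummerPairingQuot hζ hK').flip hl hr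
  refine ⟨?_, hcomm, hpow, ?_, hb1⟩
  · rw [← IsGalois.card_aut_eq_finrank, hcard]
    rfl
  · have : (kummerPairingQuot hζ hK').flip.flip = kummerPairingQuot hζ hK' := by
      ext; rfl
    rwa [this] at hb2

end Main

section Corollaries

variable {F E : Type*} [Field F] [Field E] [Algebra F E] {p : ℕ} [NeZero p]
  (hζ : (primitiveRoots p F).Nonempty)

include hζ in
/-- If `E` is generated by `p`-th roots of elements of `D`, the elements of `F` which become
`p`-th powers in `E` are exactly those of `D · Fˣᵖ`. -/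
theorem kummerGroup_eq_sup [FiniteDimensional F E] {D : Subgroup Fˣ}
    (hgen : IsGeneratedBy E p D) (hD : D ≤ kummerGroup F E p) :
    kummerGroup F E p = D ⊔ powSubgroup F p := by
  have hle : D ⊔ powSubgroup F p ≤ kummerGroup F E p :=
    sup_le hD powSubgroup_le_kummerGroup
  have h1 := (kummer_perfect hζ hgen le_sup_left hle).1
  have h2 := (kummer_perfect hζ hgen hD le_rfl).1
  have hmul := Subgroup.relIndex_mul_relIndex (powSubgroup F p) (D ⊔ powSubgroup F p)
    (kummerGroup F E p) le_sup_right hle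
  rw [← h1, ← h2] at hmul
  have hpos : 0 < Module.finrank F E := Module.finrank_pos
  have h3 : (D ⊔ powSubgroup F p).relIndex (kummerGroup F E p) = 1 := by
    have := Nat.eq_of_mul_eq_mul_left hpos (hmul.trans (mul_one _).symm)
    exact this
  exact le_antisymm (Subgroup.relIndex_eq_one.mp h3) hle

include hζ in
/-- Degree formula: `[E : F] = [D : D ∩ Fˣᵖ]`. -/
theorem finrank_eq_relIndex [FiniteDimensional F E] {D : Subgroup Fˣ}
    (hgen : IsGeneratedBy E p D) (hD : D ≤ kummerGroup F E p) :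
    Module.finrank F E = (powSubgroup F p).relIndex D := by
  have hle : D ⊔ powSubgroup F p ≤ kummerGroup F E p :=
    sup_le hD powSubgroup_le_kummerGroup
  rw [(kummer_perfect hζ hgen le_sup_left hle).1, Subgroup.relIndex_sup_right]

end Corollaries

section Classification

variable {F E : Type*} [Field F] [Field E] [Algebra F E] {p : ℕ} [NeZero p]
  (hζ : (primitiveRoots p F).Nonempty)

omit [NeZero p] in
/-- Hilbert 90 for characters: every character `χ : Gal(E/F) → Fˣ` killed by `p` is of the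
form `σ ↦ σ β / β` with `β ^ p ∈ F`. -/
theorem exists_eigenvector_of_character [FiniteDimensional F E] [IsGalois F E]
    (hexp : ∀ σ : E ≃ₐ[F] E, σ ^ p = 1) (χ : (E ≃ₐ[F] E) →* Fˣ) :
    ∃ (β : E) (b : Fˣ), β ^ p = algebraMap F E b ∧
      ∀ σ : E ≃ₐ[F] E, σ β = algebraMap F E ((χ σ : Fˣ) : F) * β := by
  let f : (E ≃ₐ[F] E) → Eˣ := fun σ => Units.map (algebraMap F E : F →* E) (χ σ)
  have hfix : ∀ (g : E ≃ₐ[F] E) (u : Fˣ),
      g • (Units.map (algebraMap F E : F →* E) u) = Units.map (algebraMap F E : F →* E) u := by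
    intro g u
    apply Units.ext
    simp [AlgEquiv.smul_units_def]
  have hf : groupCohomology.IsMulCocycle₁ f := by
    intro g h
    simp only [f]
    rw [hfix, map_mul, map_mul, mul_comm]
  obtain ⟨β, hβ⟩ := groupCohomology.isMulCoboundary₁_of_isMulCocycle₁_of_aut_to_units f hf
  have hβ' : ∀ σ : E ≃ₐ[F] E, σ (β : E) = algebraMap F E ((χ σ : Fˣ) : F) * β := by
    intro σ
    have := congrArg (fun u : Eˣ => (u : E)) (hβ σ)
    simp only [f, AlgEquiv.smul_units_def, Units.val_div_eq_div_val, Units.coe_map,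
      MonoidHom.coe_coe] at this
    rw [← this, div_mul_cancel₀ _ β.ne_zero]
  have hpow : ∀ σ : E ≃ₐ[F] E, σ ((β : E) ^ p) = (β : E) ^ p := by
    intro σ
    rw [map_pow, hβ' σ, mul_pow, ← map_pow, ← Units.val_pow_eq_pow_val, ← map_pow, hexp σ,
      map_one, Units.val_one, map_one, one_mul]
  obtain ⟨b, hb⟩ := (IsGalois.mem_range_algebraMap_iff_fixed _).mpr hpow
  have hb0 : b ≠ 0 := by
    rintro rfl
    rw [map_zero] at hb
    exact (pow_ne_zero p β.ne_zero) hb.symm
  exact ⟨β, Units.mk0 b hb0, hb.symm, hβ'⟩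

include hζ in
/-- **Classification.** A finite Galois extension with commutative Galois group killed by `p`
is generated by `p`-th roots of elements of `F`. -/
theorem isGeneratedBy_kummerGroup [FiniteDimensional F E] [IsGalois F E]
    (hcomm : ∀ σ τ : E ≃ₐ[F] E, σ * τ = τ * σ) (hexp : ∀ σ : E ≃ₐ[F] E, σ ^ p = 1) :
    IsGeneratedBy E p (kummerGroup F E p) := by
  unfold IsGeneratedBy
  set K := adjoin F (rootsOf E p (kummerGroup F E p)) with hK
  by_contra hne
  have hH : K.fixingSubgroup ≠ ⊥ := by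
    intro h
    apply hne
    rw [← IsGalois.fixedField_fixingSubgroup K, h, IntermediateField.fixedField_bot]
  obtain ⟨⟨σ₀, hσ₀⟩, hσ₀1⟩ := Subgroup.ne_bot_iff_exists_ne_one.mp hH
  have hσ₀1' : σ₀ ≠ 1 := fun h => hσ₀1 (Subtype.ext h)
  -- a character of `Gal(E/F)` not killing `σ₀`
  let _ : CommGroup (E ≃ₐ[F] E) := { (inferInstance : Group (E ≃ₐ[F] E)) with mul_comm := hcomm }
  have h1 : HasEnoughRootsOfUnity F p := hasEnoughRootsOfUnity_of_primitiveRoots hζ
  have hdvd : Monoid.exponent (E ≃ₐ[F] E) ∣ p := Monoid.exponent_dvd_of_forall_pow_eq_one hexp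
  have h2 : HasEnoughRootsOfUnity F (Monoid.exponent (E ≃ₐ[F] E)) :=
    HasEnoughRootsOfUnity.of_dvd F hdvd
  obtain ⟨χ, hχ⟩ := CommGroup.exists_apply_ne_one_of_hasEnoughRootsOfUnity (E ≃ₐ[F] E) F hσ₀1'
  obtain ⟨β, b, hβb, hβ⟩ := exists_eigenvector_of_character hexp χ
  have hβK : β ∈ K := subset_adjoin F _ ⟨b, ⟨β, hβb⟩, hβb⟩
  have hfix : σ₀ β = β := hσ₀ ⟨β, hβK⟩
  have hβ0 : β ≠ 0 := root_ne_zero hβb
  apply hχ
  have h3 := hβ σ₀
  rw [hfix] at h3
  have h4 : algebraMap F E ((χ σ₀ : Fˣ) : F) = 1 := by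
    have := mul_right_cancel₀ hβ0 (h3.symm.trans (one_mul β).symm)
    exact this
  apply Units.ext
  apply (algebraMap F E).injective
  rw [h4, Units.val_one, map_one]

end Classification

end Fermat.Agent.Lib.CFT.Kummer
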