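import Mathlib
import Fermat.Agent.Lib.CFT.Kummer.Basic

/-!
# P-CFT, WP Kummer/Subfield (helper25): Kummer subfields of a fixed big field `Ω`

`kummerField Ω p D = F(D^{1/p}) ⊆ Ω`.
-/

set_option autoImplicit false

namespace Fermat.Agent.Lib.CFT.Kummer

open Polynomial IntermediateField

section Subfield

variable {F : Type*} [Field F] (Ω : Type*) [Field Ω] [Algebra F Ω] (p : ℕ)

/-- `F(D^{1/p})` inside `Ω`: the subfield generated by all `p`-th roots (in `Ω`) of elements
of `D`. -/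
def kummerField (D : Subgroup Fˣ) : IntermediateField F Ω := adjoin F (rootsOf Ω p D)

/-- Every element of `D` has a `p`-th root in `Ω`. -/
def HasRoots (D : Subgroup Fˣ) : Prop := ∀ d ∈ D, ∃ x : Ω, x ^ p = algebraMap F Ω d

variable {Ω p}

theorem rootsOf_mono {D D' : Subgroup Fˣ} (h : D ≤ D') : rootsOf Ω p D ⊆ rootsOf Ω p D' := by
  rintro x ⟨d, hd, hx⟩
  exact ⟨d, h hd, hx⟩

theorem kummerField_mono {D D' : Subgroup Fˣ} (h : D ≤ D') :
    kummerField Ω p D ≤ kummerField Ω p D' :=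
  adjoin.mono F _ _ (rootsOf_mono h)

theorem mem_kummerField_of_pow_eq {D : Subgroup Fˣ} {d : Fˣ} (hd : d ∈ D) {x : Ω}
    (hx : x ^ p = algebraMap F Ω d) : x ∈ kummerField Ω p D :=
  subset_adjoin F _ ⟨d, hd, hx⟩

theorem hasRoots_mono {D D' : Subgroup Fˣ} (h : D ≤ D') (h' : HasRoots Ω p D') :
    HasRoots Ω p D := fun d hd => h' d (h hd)

theorem hasRoots_of_isAlgClosed [IsAlgClosed Ω] [NeZero p] (D : Subgroup Fˣ) :
    HasRoots Ω p D := fun d _ =>
  IsAlgClosed.exists_pow_nat_eq (algebraMap F Ω d) (NeZero.pos p)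

theorem hasRoots_of_isSepClosed [IsSepClosed Ω] (hζ : (primitiveRoots p F).Nonempty)
    (D : Subgroup Fˣ) : HasRoots Ω p D := by
  intro d _
  obtain ⟨ζ, hζ'⟩ := hζ
  have hp : 0 < p := by
    rcases Nat.eq_zero_or_pos p with h | h
    · subst h; simp at hζ'
    · exact h
  rw [mem_primitiveRoots hp] at hζ'
  have : NeZero p := ⟨hp.ne'⟩
  have h1 : NeZero (p : F) := hζ'.neZero'
  have h2 : NeZero (p : Ω) := ⟨by
    have := (_root_.map_ne_zero (algebraMap F Ω)).mpr h1.out
    simpa using this⟩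
  exact IsSepClosed.exists_pow_nat_eq _ p

/-- Adjoining `p`-th powers of `Fˣ` to `D` does not change the Kummer field. -/
theorem kummerField_sup_powSubgroup [NeZero p] (D : Subgroup Fˣ) :
    kummerField Ω p (D ⊔ powSubgroup F p) = kummerField Ω p D := by
  refine le_antisymm ?_ (kummerField_mono le_sup_left)
  refine adjoin_le_iff.mpr ?_
  rintro x ⟨d, hd, hx⟩
  obtain ⟨a, ha, b, ⟨y, rfl⟩, rfl⟩ := Subgroup.mem_sup.mp hd
  have hy0 : algebraMap F Ω (y : F) ≠ 0 := (_root_.map_ne_zero _).mpr y.ne_zero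
  have hxy : (x / algebraMap F Ω (y : F)) ^ p = algebraMap F Ω (a : F) := by
    rw [div_pow, hx]
    simp only [powMonoidHom_apply, Units.val_mul, Units.val_pow_eq_pow_val, map_mul, map_pow]
    field_simp
  have h1 : x / algebraMap F Ω (y : F) ∈ kummerField Ω p D := mem_kummerField_of_pow_eq ha hxy
  have h2 : x = x / algebraMap F Ω (y : F) * algebraMap F Ω (y : F) := by field_simp
  rw [SetLike.mem_coe, h2]
  exact mul_mem h1 (IntermediateField.algebraMap_mem _ _)

theorem le_kummerGroup_kummerField {D : Subgroup Fˣ} (h : HasRoots Ω p D) :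
    D ≤ kummerGroup F (kummerField Ω p D) p := by
  intro d hd
  obtain ⟨x, hx⟩ := h d hd
  exact ⟨⟨x, mem_kummerField_of_pow_eq hd hx⟩, Subtype.ext (by simpa using hx)⟩

/-- The Kummer field is generated (as an abstract extension) by the `p`-th roots of `D`. -/
theorem isGeneratedBy_kummerField (D : Subgroup Fˣ) :
    IsGeneratedBy (kummerField Ω p D) p D := by
  unfold IsGeneratedBy
  apply lift_injective (kummerField Ω p D)
  rw [lift_adjoin, lift_top]
  change _ = adjoin F (rootsOf Ω p D)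
  congr 1
  ext x
  constructor
  · rintro ⟨y, ⟨d, hd, hy⟩, rfl⟩
    exact ⟨d, hd, by simpa using congrArg Subtype.val hy⟩
  · rintro ⟨d, hd, hx⟩
    refine ⟨⟨x, mem_kummerField_of_pow_eq hd hx⟩, ⟨d, hd, Subtype.ext (by simpa using hx)⟩, rfl⟩

theorem isIntegral_of_pow_eq [NeZero p] {a : F} {x : Ω} (hx : x ^ p = algebraMap F Ω a) :
    IsIntegral F x :=
  ⟨X ^ p - C a, monic_X_pow_sub_C _ (NeZero.ne p), by simp [hx]⟩

/-- The Kummer field is already generated by the roots of a set of representatives of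
`D` modulo `p`-th powers. -/
theorem kummerField_eq_adjoin_of_reps [NeZero p] {D : Subgroup Fˣ} (S : Set Fˣ) (hS : S ⊆ D)
    (h : ∀ d ∈ D, ∃ s ∈ S, ∃ y : Fˣ, d = s * y ^ p) :
    kummerField Ω p D = adjoin F {x : Ω | ∃ s ∈ S, x ^ p = algebraMap F Ω s} := by
  refine le_antisymm ?_ ?_
  · refine adjoin_le_iff.mpr ?_
    rintro x ⟨d, hd, hx⟩
    obtain ⟨s, hs, y, rfl⟩ := h d hd
    have hy0 : algebraMap F Ω (y : F) ≠ 0 := (_root_.map_ne_zero _).mpr y.ne_zero
    have hxy : (x / algebraMap F Ω (y : F)) ^ p = algebraMap F Ω (s : F) := by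
      rw [div_pow, hx]
      simp only [Units.val_mul, Units.val_pow_eq_pow_val, map_mul, map_pow]
      field_simp
    have h1 : x / algebraMap F Ω (y : F) ∈ adjoin F {x : Ω | ∃ s ∈ S, x ^ p = algebraMap F Ω s} :=
      subset_adjoin F _ ⟨s, hs, hxy⟩
    have h2 : x = x / algebraMap F Ω (y : F) * algebraMap F Ω (y : F) := by field_simp
    rw [SetLike.mem_coe, h2]
    exact mul_mem h1 (IntermediateField.algebraMap_mem _ _)
  · refine adjoin.mono F _ _ ?_
    rintro x ⟨s, hs, hx⟩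
    exact ⟨s, hS hs, hx⟩

/-- If `D` has finite index modulo `p`-th powers, the Kummer field is finite-dimensional. -/
theorem finiteDimensional_kummerField [NeZero p] {D : Subgroup Fˣ}
    (hfin : (powSubgroup F p).relIndex D ≠ 0) : FiniteDimensional F (kummerField Ω p D) := by
  classical
  have hfin' : Finite (D ⧸ (powSubgroup F p).subgroupOf D) :=
    Subgroup.index_ne_zero_iff_finite.mp hfin
  let S : Set Fˣ := Set.range fun q : D ⧸ (powSubgroup F p).subgroupOf D => ((q.out : D) : Fˣ)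
  have hSD : S ⊆ D := by
    rintro _ ⟨q, rfl⟩
    exact q.out.2
  have hrep : ∀ d ∈ D, ∃ s ∈ S, ∃ y : Fˣ, d = s * y ^ p := by
    intro d hd
    obtain ⟨⟨h, hh⟩, hq⟩ := QuotientGroup.mk_out_eq_mul ((powSubgroup F p).subgroupOf D) ⟨d, hd⟩
    obtain ⟨y, hy⟩ := Subgroup.mem_subgroupOf.mp hh
    refine ⟨_, ⟨QuotientGroup.mk ⟨d, hd⟩, rfl⟩, y⁻¹, ?_⟩
    have h1 := congrArg (fun z : D => (z : Fˣ)) hq
    simp only [Subgroup.coe_mul] at h1
    beta_reduce
    rw [h1, ← hy]
    simp [mul_assoc]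
  rw [kummerField_eq_adjoin_of_reps S hSD hrep]
  have hSfin : S.Finite := Set.finite_range _
  have hT : {x : Ω | ∃ s ∈ S, x ^ p = algebraMap F Ω s}.Finite := by
    have : {x : Ω | ∃ s ∈ S, x ^ p = algebraMap F Ω s} =
        ⋃ s ∈ S, ((nthRoots p (algebraMap F Ω (s : F))).toFinset : Set Ω) := by
      ext x
      simp [mem_nthRoots (NeZero.pos p)]
    rw [this]
    exact hSfin.biUnion fun s _ => Finset.finite_toSet _
  have : Finite {x : Ω | ∃ s ∈ S, x ^ p = algebraMap F Ω s} := hT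
  exact finiteDimensional_adjoin fun x hx => by
    obtain ⟨s, -, hx⟩ := hx
    exact isIntegral_of_pow_eq hx

end Subfield

section MainSubfield

variable {F : Type*} [Field F] {Ω : Type*} [Field Ω] [Algebra F Ω] {p : ℕ} [NeZero p]
  (hζ : (primitiveRoots p F).Nonempty)

include hζ in
theorem isGalois_kummerField (D : Subgroup Fˣ) : IsGalois F (kummerField Ω p D) :=
  isGalois_of_isGeneratedBy hζ (isGeneratedBy_kummerField D)

include hζ in
/-- If one `p`-th root of `d` lies in the intermediate field `E`, all of them do. -/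
theorem mem_of_pow_eq_of_mem_kummerGroup (E : IntermediateField F Ω) {d : Fˣ}
    (hd : d ∈ kummerGroup F E p) {x : Ω} (hx : x ^ p = algebraMap F Ω d) : x ∈ E := by
  obtain ⟨y, hy⟩ := hd
  have hy' : (y : Ω) ^ p = algebraMap F Ω d := by simpa using congrArg Subtype.val hy
  have hy0 : (y : Ω) ≠ 0 := root_ne_zero hy'
  have h1 : (x / (y : Ω)) ^ p = 1 := by
    rw [div_pow, hx, hy', div_self]
    exact (_root_.map_ne_zero _).mpr d.ne_zero
  obtain ⟨ζ, hζ'⟩ := exists_rootsOfUnity_eq hζ h1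
  have h2 : x = algebraMap F Ω ((ζ : Fˣ) : F) * y := by
    rw [hζ', div_mul_cancel₀ _ hy0]
  rw [h2]
  exact mul_mem (IntermediateField.algebraMap_mem _ _) y.2

include hζ in
theorem kummerField_le_of_le_kummerGroup (E : IntermediateField F Ω) {D : Subgroup Fˣ}
    (h : D ≤ kummerGroup F E p) : kummerField Ω p D ≤ E := by
  refine adjoin_le_iff.mpr ?_
  rintro x ⟨d, hd, hx⟩
  exact mem_of_pow_eq_of_mem_kummerGroup hζ E (h hd) hx

omit [NeZero p] in
theorem le_kummerGroup_of_kummerField_le (E : IntermediateField F Ω) {D : Subgroup Fˣ}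
    (hroots : HasRoots Ω p D) (h : kummerField Ω p D ≤ E) : D ≤ kummerGroup F E p := by
  intro d hd
  obtain ⟨x, hx⟩ := hroots d hd
  exact ⟨⟨x, h (mem_kummerField_of_pow_eq hd hx)⟩, Subtype.ext (by simpa using hx)⟩

include hζ in
/-- Galois connection between subgroups of `Fˣ` and intermediate fields. -/
theorem kummerField_le_iff_le_kummerGroup (E : IntermediateField F Ω) {D : Subgroup Fˣ}
    (hroots : HasRoots Ω p D) : kummerField Ω p D ≤ E ↔ D ≤ kummerGroup F E p :=
  ⟨le_kummerGroup_of_kummerField_le E hroots, kummerField_le_of_le_kummerGroup hζ E⟩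

include hζ in
/-- Degree formula `[F(D^{1/p}) : F] = [D : D ∩ Fˣᵖ]`. -/
theorem finrank_kummerField {D : Subgroup Fˣ} (hroots : HasRoots Ω p D)
    (hfin : (powSubgroup F p).relIndex D ≠ 0) :
    Module.finrank F (kummerField Ω p D) = (powSubgroup F p).relIndex D := by
  have := finiteDimensional_kummerField (Ω := Ω) hfin
  exact finrank_eq_relIndex hζ (isGeneratedBy_kummerField D) (le_kummerGroup_kummerField hroots)

include hζ in
theorem kummerGroup_kummerField_of_finite {D : Subgroup Fˣ} (hroots : HasRoots Ω p D)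
    (hfin : (powSubgroup F p).relIndex D ≠ 0) :
    kummerGroup F (kummerField Ω p D) p = D ⊔ powSubgroup F p := by
  have := finiteDimensional_kummerField (Ω := Ω) hfin
  exact kummerGroup_eq_sup hζ (isGeneratedBy_kummerField D) (le_kummerGroup_kummerField hroots)

/-- The Galois group of a finite Kummer field is abelian of exponent `p` and in perfect duality
with `D / (D ∩ Fˣᵖ)`. -/
theorem kummerField_perfect {D : Subgroup Fˣ} (hroots : HasRoots Ω p D)
    (hfin : (powSubgroup F p).relIndex D ≠ 0) :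
    (∀ σ τ : kummerField Ω p D ≃ₐ[F] kummerField Ω p D, σ * τ = τ * σ) ∧
      (∀ σ : kummerField Ω p D ≃ₐ[F] kummerField Ω p D, σ ^ p = 1) ∧
      Function.Bijective (kummerPairingQuot hζ (le_kummerGroup_kummerField hroots)) ∧
      Function.Bijective (kummerPairingQuot hζ (le_kummerGroup_kummerField hroots)).flip := by
  have := finiteDimensional_kummerField (Ω := Ω) hfin
  exact (kummer_perfect hζ (isGeneratedBy_kummerField D) le_rfl
    (le_kummerGroup_kummerField hroots)).2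

/-- A finitely generated subgroup of `Fˣ` has finite index modulo `p`-th powers. -/
theorem relIndex_ne_zero_of_fg {D : Subgroup Fˣ} (hD : D.FG) :
    (powSubgroup F p).relIndex D ≠ 0 := by
  have : Group.FG D := (Group.fg_iff_subgroup_fg D).mpr hD
  rw [Subgroup.relIndex, Subgroup.index_ne_zero_iff_finite]
  refine CommGroup.finite_of_fg_isMulTorsion _ fun q => ?_
  induction q using QuotientGroup.induction_on with
  | H d =>
    refine isOfFinOrder_iff_pow_eq_one.mpr ⟨p, NeZero.pos p, ?_⟩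
    rw [← QuotientGroup.mk_pow, QuotientGroup.eq_one_iff, Subgroup.mem_subgroupOf]
    exact ⟨(d : Fˣ), by simp⟩

include hζ in
/-- `Fˣ ∩ (F(D^{1/p})ˣ)ᵖ = D · Fˣᵖ`, without any finiteness hypothesis. -/
theorem kummerGroup_kummerField {D : Subgroup Fˣ} (hroots : HasRoots Ω p D) :
    kummerGroup F (kummerField Ω p D) p = D ⊔ powSubgroup F p := by
  classical
  refine le_antisymm ?_ (sup_le (le_kummerGroup_kummerField hroots) powSubgroup_le_kummerGroup)
  rintro d ⟨⟨x, hxK⟩, hx⟩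
  have hx' : x ^ p = algebraMap F Ω d := by simpa using congrArg Subtype.val hx
  obtain ⟨T, hT, hxT⟩ := exists_finset_of_mem_adjoin hxK
  -- choose for each `t ∈ T` an element of `D` of which it is a root
  have hT' : ∀ t ∈ T, ∃ d : Fˣ, d ∈ D ∧ t ^ p = algebraMap F Ω d := fun t ht => hT ht
  choose! f hf using hT'
  have hfD : ∀ {t}, t ∈ T → f t ∈ D := fun ht => (hf _ ht).1
  have hft : ∀ {t}, t ∈ T → t ^ p = algebraMap F Ω (f t) := fun ht => (hf _ ht).2
  let D₀ : Subgroup Fˣ := Subgroup.closure (f '' (T : Set Ω))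
  have hD₀D : D₀ ≤ D := (Subgroup.closure_le D).mpr (by
    rintro _ ⟨t, ht, rfl⟩
    exact hfD ht)
  have hD₀fg : D₀.FG := ⟨T.image f, by simp [D₀]⟩
  have hfin : (powSubgroup F p).relIndex D₀ ≠ 0 := relIndex_ne_zero_of_fg hD₀fg
  have hxD₀ : x ∈ kummerField Ω p D₀ := by
    refine adjoin.mono F _ _ ?_ hxT
    intro t ht
    exact ⟨f t, Subgroup.subset_closure ⟨t, ht, rfl⟩, hft ht⟩
  have hd₀ : d ∈ kummerGroup F (kummerField Ω p D₀) p :=
    ⟨⟨x, hxD₀⟩, Subtype.ext (by simpa using hx')⟩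
  rw [kummerGroup_kummerField_of_finite hζ (hasRoots_mono hD₀D hroots) hfin] at hd₀
  exact sup_le_sup_right hD₀D _ hd₀

include hζ in
/-- **Order embedding**: `F(D^{1/p}) ≤ F(D'^{1/p}) ↔ D ≤ D' · Fˣᵖ`. -/
theorem kummerField_le_kummerField_iff {D D' : Subgroup Fˣ} (hroots : HasRoots Ω p D)
    (hroots' : HasRoots Ω p D') :
    kummerField Ω p D ≤ kummerField Ω p D' ↔ D ≤ D' ⊔ powSubgroup F p := by
  rw [kummerField_le_iff_le_kummerGroup hζ _ hroots, kummerGroup_kummerField hζ hroots']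

include hζ in
theorem kummerField_eq_kummerField_iff {D D' : Subgroup Fˣ} (hroots : HasRoots Ω p D)
    (hroots' : HasRoots Ω p D') :
    kummerField Ω p D = kummerField Ω p D' ↔
      D ⊔ powSubgroup F p = D' ⊔ powSubgroup F p := by
  rw [le_antisymm_iff, kummerField_le_kummerField_iff hζ hroots hroots',
    kummerField_le_kummerField_iff hζ hroots' hroots, le_antisymm_iff]
  constructor
  · rintro ⟨h1, h2⟩
    exact ⟨sup_le h1 le_sup_right, sup_le h2 le_sup_right⟩
  · rintro ⟨h1, h2⟩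
    exact ⟨le_sup_left.trans h1, le_sup_left.trans h2⟩

include hζ in
/-- **Classification inside `Ω`**: a finite Galois subextension with abelian Galois group of
exponent `p` is the Kummer field of `Fˣ ∩ (Eˣ)ᵖ`. -/
theorem kummerField_kummerGroup_eq (E : IntermediateField F Ω) [FiniteDimensional F E]
    [IsGalois F E] (hcomm : ∀ σ τ : E ≃ₐ[F] E, σ * τ = τ * σ)
    (hexp : ∀ σ : E ≃ₐ[F] E, σ ^ p = 1) :
    kummerField Ω p (kummerGroup F E p) = E := by
  refine le_antisymm (kummerField_le_of_le_kummerGroup hζ E le_rfl) ?_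
  have h := isGeneratedBy_kummerGroup hζ hcomm hexp
  unfold IsGeneratedBy at h
  have h' : adjoin F (Subtype.val '' rootsOf E p (kummerGroup F E p)) = E := by
    have := congrArg (lift (F := E)) h
    rwa [lift_adjoin, lift_top] at this
  intro x hx
  have hx' : x ∈ adjoin F (Subtype.val '' rootsOf E p (kummerGroup F E p)) := by
    rw [h']; exact hx
  refine adjoin.mono F _ _ ?_ hx'
  rintro _ ⟨y, ⟨d, hd, hy⟩, rfl⟩
  exact ⟨d, hd, by simpa using congrArg Subtype.val hy⟩

end MainSubfield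

section Equivariance

variable {F : Type*} [Field F] {E E' : Type*} [Field E] [Field E'] [Algebra F E] [Algebra F E']
  {p : ℕ} [NeZero p] (hζ : (primitiveRoots p F).Nonempty)

/-- A semilinear isomorphism of extensions: `τ : E ≃+* E'` lying over `τF : F ≃+* F`. -/
def IsOver (τ : E ≃+* E') (τF : F ≃+* F) : Prop :=
  ∀ a : F, τ (algebraMap F E a) = algebraMap F E' (τF a)

omit [NeZero p] in
theorem IsOver.symm_apply {τ : E ≃+* E'} {τF : F ≃+* F} (h : IsOver τ τF) (a : F) :
    τ.symm (algebraMap F E' a) = algebraMap F E (τF.symm a) := by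
  rw [RingEquiv.symm_apply_eq, h, RingEquiv.apply_symm_apply]

/-- Conjugation `σ ↦ τ σ τ⁻¹` by a semilinear isomorphism, as an isomorphism of Galois groups. -/
noncomputable def conjAlgEquiv (τ : E ≃+* E') (τF : F ≃+* F) (h : IsOver τ τF) :
    (E ≃ₐ[F] E) ≃* (E' ≃ₐ[F] E') where
  toFun σ := AlgEquiv.ofRingEquiv (f := τ.symm.trans (σ.toRingEquiv.trans τ)) (by
    intro a
    simp only [RingEquiv.coe_trans, Function.comp_apply, h.symm_apply]
    have h1 : σ.toRingEquiv (algebraMap F E (τF.symm a)) = algebraMap F E (τF.symm a) :=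
      σ.commutes _
    rw [h1, h, RingEquiv.apply_symm_apply])
  invFun σ := AlgEquiv.ofRingEquiv (f := τ.trans (σ.toRingEquiv.trans τ.symm)) (by
    intro a
    simp only [RingEquiv.coe_trans, Function.comp_apply, h a]
    have h1 : σ.toRingEquiv (algebraMap F E' (τF a)) = algebraMap F E' (τF a) :=
      σ.commutes _
    rw [h1, h.symm_apply, RingEquiv.symm_apply_apply])
  left_inv σ := by
    ext x
    simp [AlgEquiv.ofRingEquiv]
  right_inv σ := by
    ext x
    simp [AlgEquiv.ofRingEquiv]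
  map_mul' σ σ' := by
    ext x
    simp [AlgEquiv.ofRingEquiv, AlgEquiv.mul_apply]

omit [NeZero p] in
@[simp]
theorem conjAlgEquiv_apply (τ : E ≃+* E') (τF : F ≃+* F) (h : IsOver τ τF) (σ : E ≃ₐ[F] E)
    (x : E') : conjAlgEquiv τ τF h σ x = τ (σ (τ.symm x)) := rfl

omit [NeZero p] in
theorem conjAlgEquiv_apply_apply (τ : E ≃+* E') (τF : F ≃+* F) (h : IsOver τ τF)
    (σ : E ≃ₐ[F] E) (x : E) : conjAlgEquiv τ τF h σ (τ x) = τ (σ x) := by
  simp

omit [NeZero p] in
theorem map_mem_kummerGroup {τ : E ≃+* E'} {τF : F ≃+* F} (h : IsOver τ τF) {d : Fˣ}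
    (hd : d ∈ kummerGroup F E p) : Units.map (τF : F →* F) d ∈ kummerGroup F E' p := by
  obtain ⟨x, hx⟩ := hd
  exact ⟨τ x, by rw [← map_pow, hx, h]; rfl⟩

/-- **Equivariance of the Kummer pairing**: `⟨τ σ τ⁻¹, τ d⟩ = τ ⟨σ, d⟩`. -/
theorem kummerPairing_conj {τ : E ≃+* E'} {τF : F ≃+* F} (h : IsOver τ τF) (σ : E ≃ₐ[F] E)
    (d : kummerGroup F E p) :
    (((kummerPairing hζ (conjAlgEquiv τ τF h σ)
      ⟨Units.map (τF : F →* F) d, map_mem_kummerGroup h d.2⟩ : rootsOfUnity p F) : Fˣ) : F) =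
      τF (((kummerPairing hζ σ d : rootsOfUnity p F) : Fˣ) : F) := by
  obtain ⟨x, hx⟩ := d.2
  have hx' : (τ x) ^ p = algebraMap F E' ((Units.map (τF : F →* F) (d : Fˣ) : Fˣ) : F) := by
    rw [← map_pow, hx, h]; rfl
  have hζ' : (τF (((kummerPairing hζ σ d : rootsOfUnity p F) : Fˣ) : F)) ^ p = 1 := by
    rw [← map_pow, ← Units.val_pow_eq_pow_val]
    have := (mem_rootsOfUnity _ _).mp (kummerPairing hζ σ d).2
    rw [this, Units.val_one, map_one]
  set ζ' : rootsOfUnity p F := rootsOfUnity.mkOfPowEq _ hζ' with hζ'def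
  have hspec : conjAlgEquiv τ τF h σ (τ x) = algebraMap F E' ((ζ' : Fˣ) : F) * τ x := by
    rw [conjAlgEquiv_apply_apply, kummerPairing_spec hζ σ d hx, map_mul, h,
      rootsOfUnity.coe_mkOfPowEq]
  rw [kummerPairing_eq_of_spec hζ _ ⟨_, map_mem_kummerGroup h d.2⟩ hx' hspec,
    rootsOfUnity.coe_mkOfPowEq]

end Equivariance

section EquivarianceSubfield

variable {F : Type*} [Field F] {Ω : Type*} [Field Ω] [Algebra F Ω] {p : ℕ}

/-- `τ(F(D^{1/p})) = F((τ D)^{1/p})` for an automorphism `τ` of `Ω` preserving `F`. -/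
theorem map_kummerField {τ : Ω ≃+* Ω} {τF : F ≃+* F} (h : IsOver τ τF) (D : Subgroup Fˣ) :
    (kummerField Ω p D).toSubfield.map (τ : Ω →+* Ω) =
      (kummerField Ω p (D.map (Units.map (τF : F →* F)))).toSubfield := by
  unfold kummerField
  rw [adjoin_toSubfield, adjoin_toSubfield, RingHom.map_field_closure, Set.image_union]
  congr 2
  · ext x
    constructor
    · rintro ⟨_, ⟨a, rfl⟩, rfl⟩
      exact ⟨τF a, (h a).symm⟩
    · rintro ⟨a, rfl⟩
      exact ⟨algebraMap F Ω (τF.symm a), ⟨_, rfl⟩, by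
        rw [RingEquiv.coe_toRingHom, h, RingEquiv.apply_symm_apply]⟩
  · ext x
    constructor
    · rintro ⟨y, ⟨d, hd, hy⟩, rfl⟩
      refine ⟨Units.map (τF : F →* F) d, Subgroup.mem_map_of_mem _ hd, ?_⟩
      rw [RingEquiv.coe_toRingHom, ← map_pow, hy, h]; rfl
    · rintro ⟨_, ⟨d, hd, rfl⟩, hx⟩
      refine ⟨τ.symm x, ⟨d, hd, ?_⟩, by simp⟩
      rw [← map_pow, hx, h.symm_apply]
      simp

theorem mem_kummerField_map_iff {τ : Ω ≃+* Ω} {τF : F ≃+* F} (h : IsOver τ τF)
    (D : Subgroup Fˣ) (x : Ω) :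
    τ x ∈ kummerField Ω p (D.map (Units.map (τF : F →* F))) ↔ x ∈ kummerField Ω p D := by
  rw [← IntermediateField.mem_toSubfield, ← map_kummerField h D, Subfield.mem_map]
  constructor
  · rintro ⟨y, hy, hyx⟩
    have : y = x := τ.injective hyx
    rw [← this]; exact hy
  · intro hx
    exact ⟨x, hx, rfl⟩

end EquivarianceSubfield

section H1

variable {F : Type*} [Field F] {Ω : Type*} [Field Ω] [Algebra F Ω] {p : ℕ} [NeZero p]
  (hζ : (primitiveRoots p F).Nonempty)

omit [NeZero p] in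
/-- Hilbert 90 for characters with values killed by `p` (no hypothesis on the Galois group). -/
theorem exists_eigenvector_of_character' {E : Type*} [Field E] [Algebra F E]
    [FiniteDimensional F E] [IsGalois F E] (χ : (E ≃ₐ[F] E) →* Fˣ) (hχ : ∀ σ, χ σ ^ p = 1) :
    ∃ (β : E) (b : Fˣ), β ^ p = algebraMap F E b ∧
      ∀ σ : E ≃ₐ[F] E, σ β = algebraMap F E ((χ σ : Fˣ) : F) * β := by
  let f : (E ≃ₐ[F] E) → Eˣ := fun σ => Units.map (algebraMap F E : F →* E) (χ σ)
  have hfix : ∀ (g : E ≃ₐ[F] E) (u : Fˣ),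
      g • (Units.map (algebraMap F E : F →* E) u) = Units.map (algebraMap F E : F →* E) u := by
    intro g u
    apply Units.ext
    simp [AlgEquiv.smul_units_def]
  have hf : groupCohomology.IsMulCocycle₁ f := by
    intro g h
    simp only [f]
    rw [hfix, map_mul, map_mul, mul_comm]
  obtain ⟨β, hβ⟩ := groupCohomology.isMulCoboundary₁_of_isMulCocycle₁_of_aut_to_units f hf
  have hβ' : ∀ σ : E ≃ₐ[F] E, σ (β : E) = algebraMap F E ((χ σ : Fˣ) : F) * β := by
    intro σ
    have := congrArg (fun u : Eˣ => (u : E)) (hβ σ)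
    simp only [f, AlgEquiv.smul_units_def, Units.val_div_eq_div_val, Units.coe_map,
      MonoidHom.coe_coe] at this
    rw [← this, div_mul_cancel₀ _ β.ne_zero]
  have hpow : ∀ σ : E ≃ₐ[F] E, σ ((β : E) ^ p) = (β : E) ^ p := by
    intro σ
    rw [map_pow, hβ' σ, mul_pow, ← map_pow, ← Units.val_pow_eq_pow_val, hχ σ,
      Units.val_one, map_one, one_mul]
  obtain ⟨b, hb⟩ := (IsGalois.mem_range_algebraMap_iff_fixed _).mpr hpow
  have hb0 : b ≠ 0 := by
    rintro rfl
    rw [map_zero] at hb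
    exact (pow_ne_zero p β.ne_zero) hb.symm
  exact ⟨β, Units.mk0 b hb0, hb.symm, hβ'⟩

/-- The Kummer character `σ ↦ σ(d^{1/p}) / d^{1/p}` of `d ∈ Fˣ`, on the Galois group of a field
`Ω` containing `p`-th roots of all elements of `F`. -/
noncomputable def kummerChar (hroots : HasRoots Ω p (⊤ : Subgroup Fˣ)) :
    Fˣ →* ((Ω ≃ₐ[F] Ω) →* rootsOfUnity p F) :=
  (kummerPairing hζ).flip.comp
    ({ toFun := fun d => ⟨d, hroots d (Subgroup.mem_top d)⟩
       map_one' := rfl
       map_mul' := fun _ _ => rfl } : Fˣ →* kummerGroup F Ω p)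

variable (hroots : HasRoots Ω p (⊤ : Subgroup Fˣ))

theorem kummerChar_apply (d : Fˣ) (σ : Ω ≃ₐ[F] Ω) :
    kummerChar hζ hroots d σ = kummerPairing hζ σ ⟨d, hroots d (Subgroup.mem_top d)⟩ := rfl

theorem kummerChar_spec (d : Fˣ) (σ : Ω ≃ₐ[F] Ω) {x : Ω} (hx : x ^ p = algebraMap F Ω d) :
    σ x = algebraMap F Ω ((kummerChar hζ hroots d σ : Fˣ) : F) * x :=
  kummerPairing_spec hζ σ ⟨d, hroots d (Subgroup.mem_top d)⟩ hx

theorem kummerChar_eq_of_spec (d : Fˣ) (σ : Ω ≃ₐ[F] Ω) {ζ : rootsOfUnity p F} {x : Ω}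
    (hx : x ^ p = algebraMap F Ω d) (h : σ x = algebraMap F Ω ((ζ : Fˣ) : F) * x) :
    kummerChar hζ hroots d σ = ζ :=
  kummerPairing_eq_of_spec hζ σ ⟨d, hroots d (Subgroup.mem_top d)⟩ hx h

theorem kummerChar_eq_one_iff_apply (d : Fˣ) (σ : Ω ≃ₐ[F] Ω) {x : Ω}
    (hx : x ^ p = algebraMap F Ω d) : kummerChar hζ hroots d σ = 1 ↔ σ x = x :=
  kummerPairing_eq_one_iff hζ σ ⟨d, hroots d (Subgroup.mem_top d)⟩ hx

/-- The Kummer character of `d` is trivial iff `d` is a `p`-th power in `F`. -/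
theorem kummerChar_eq_one_iff [IsGalois F Ω] (d : Fˣ) :
    kummerChar hζ hroots d = 1 ↔ d ∈ powSubgroup F p := by
  constructor
  · intro h
    exact mem_powSubgroup_of_forall_kummerPairing_eq_one hζ
      ⟨d, hroots d (Subgroup.mem_top d)⟩ fun σ => by
        rw [← kummerChar_apply hζ hroots, h]; rfl
  · intro h
    ext1 σ
    exact kummerPairing_eq_one_of_mem_powSubgroup hζ σ ⟨d, hroots d (Subgroup.mem_top d)⟩ h

theorem fixingSubgroup_le_ker_kummerChar (d : Fˣ) {x : Ω} (hx : x ^ p = algebraMap F Ω d) :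
    (F⟮x⟯).fixingSubgroup ≤ (kummerChar hζ hroots d).ker := by
  intro σ hσ
  rw [MonoidHom.mem_ker, kummerChar_eq_one_iff_apply hζ hroots d σ hx]
  exact (IntermediateField.mem_fixingSubgroup_iff _ _).mp hσ x (mem_adjoin_simple_self F x)

/-- The characters `Gal(Ω/F) → μ_p` that factor through a finite level (equivalently: with open
kernel, equivalently: continuous for the discrete topology on `μ_p`). -/
def levelChars (F : Type*) [Field F] (Ω : Type*) [Field Ω] [Algebra F Ω] (p : ℕ) :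
    Subgroup ((Ω ≃ₐ[F] Ω) →* rootsOfUnity p F) where
  carrier := {χ | ∃ E : IntermediateField F Ω, FiniteDimensional F E ∧ E.fixingSubgroup ≤ χ.ker}
  one_mem' := ⟨⊥, inferInstance, by simp [MonoidHom.ker_one]⟩
  mul_mem' := by
    rintro χ ψ ⟨E, hE, hEχ⟩ ⟨E', hE', hEψ⟩
    refine ⟨E ⊔ E', inferInstance, fun σ hσ => ?_⟩
    have h1 : σ ∈ χ.ker := hEχ (IntermediateField.fixingSubgroup_le le_sup_left hσ)
    have h2 : σ ∈ ψ.ker := hEψ (IntermediateField.fixingSubgroup_le le_sup_right hσ)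
    rw [MonoidHom.mem_ker] at h1 h2 ⊢
    rw [MonoidHom.mul_apply, h1, h2, one_mul]
  inv_mem' := by
    rintro χ ⟨E, hE, hEχ⟩
    refine ⟨E, hE, fun σ hσ => ?_⟩
    have h1 : σ ∈ χ.ker := hEχ hσ
    rw [MonoidHom.mem_ker] at h1 ⊢
    rw [MonoidHom.inv_apply, h1, inv_one]

omit [NeZero p] in
theorem mem_levelChars_iff {χ : (Ω ≃ₐ[F] Ω) →* rootsOfUnity p F} :
    χ ∈ levelChars F Ω p ↔
      ∃ E : IntermediateField F Ω, FiniteDimensional F E ∧ E.fixingSubgroup ≤ χ.ker := Iff.rfl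

omit [NeZero p] in
theorem mem_levelChars_iff_isOpen {χ : (Ω ≃ₐ[F] Ω) →* rootsOfUnity p F} :
    χ ∈ levelChars F Ω p ↔ IsOpen (χ.ker : Set (Ω ≃ₐ[F] Ω)) := by
  constructor
  · rintro ⟨E, hE, hEχ⟩
    exact Subgroup.isOpen_mono hEχ E.fixingSubgroup_isOpen
  · intro h
    have h1 : (χ.ker : Set (Ω ≃ₐ[F] Ω)) ∈ nhds (1 : Ω ≃ₐ[F] Ω) := h.mem_nhds (one_mem _)
    obtain ⟨E, hE, hEχ⟩ := (krullTopology_mem_nhds_one_iff F Ω _).mp h1
    exact ⟨E, hE, hEχ⟩

theorem kummerChar_mem_levelChars (d : Fˣ) : kummerChar hζ hroots d ∈ levelChars F Ω p := by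
  obtain ⟨x, hx⟩ := hroots d (Subgroup.mem_top d)
  have hint : IsIntegral F x := isIntegral_of_pow_eq hx
  exact ⟨F⟮x⟯, adjoin.finiteDimensional hint, fixingSubgroup_le_ker_kummerChar hζ hroots d hx⟩

/-- **Surjectivity of the Kummer map** (Hilbert 90): every finite-level character of `Gal(Ω/F)`
with values in `μ_p` is a Kummer character. -/
theorem exists_kummerChar_eq [IsGalois F Ω] {χ : (Ω ≃ₐ[F] Ω) →* rootsOfUnity p F}
    (hχ : χ ∈ levelChars F Ω p) : ∃ d : Fˣ, kummerChar hζ hroots d = χ := by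
  obtain ⟨E, hE, hEχ⟩ := hχ
  -- pass to the normal closure
  let N : IntermediateField F Ω := IntermediateField.normalClosure F E Ω
  have hNfin : FiniteDimensional F N := normalClosure.is_finiteDimensional F E Ω
  have hNnorm : Normal F N := normalClosure.normal F E Ω
  have hNsep : Algebra.IsSeparable F N := Algebra.isSeparable_tower_bot_of_isSeparable F N Ω
  have hNgal : IsGalois F N := ⟨⟩
  have hNχ : N.fixingSubgroup ≤ χ.ker :=
    le_trans (IntermediateField.fixingSubgroup_le E.le_normalClosure) hEχ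
  have hsurj : Function.Surjective (AlgEquiv.restrictNormalHom (F := F) (K₁ := Ω) N) :=
    AlgEquiv.restrictNormalHom_surjective Ω
  have hker : (AlgEquiv.restrictNormalHom (F := F) (K₁ := Ω) N).ker ≤ χ.ker := by
    rw [IntermediateField.restrictNormalHom_ker]; exact hNχ
  let χ' : (N ≃ₐ[F] N) →* rootsOfUnity p F :=
    (AlgEquiv.restrictNormalHom (F := F) (K₁ := Ω) N).liftOfSurjective hsurj ⟨χ, hker⟩
  have hχ' : ∀ σ : Ω ≃ₐ[F] Ω, χ' (AlgEquiv.restrictNormalHom N σ) = χ σ := fun σ =>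
    MonoidHom.liftOfRightInverse_comp_apply _ _ _ ⟨χ, hker⟩ σ
  obtain ⟨β, b, hβb, hβ⟩ := exists_eigenvector_of_character' (p := p)
    ((Subgroup.subtype _).comp χ') (fun σ => by
      have := (mem_rootsOfUnity _ _).mp (χ' σ).2
      simpa using this)
  refine ⟨b, ?_⟩
  ext1 σ
  have hx : (β : Ω) ^ p = algebraMap F Ω b := by simpa using congrArg Subtype.val hβb
  refine kummerChar_eq_of_spec hζ hroots b σ hx ?_
  have h1 := hβ (AlgEquiv.restrictNormalHom N σ)
  have h2 := congrArg Subtype.val h1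
  rw [AlgEquiv.restrictNormalHom_apply] at h2
  rw [h2]
  simp [hχ']

/-- **Kummer theory, `H¹` form**: `Fˣ / Fˣᵖ ≃ Hom_cont(Gal(Ω/F), μ_p)`. -/
noncomputable def kummerH1Equiv [IsGalois F Ω] :
    Fˣ ⧸ powSubgroup F p ≃* levelChars F Ω p :=
  MulEquiv.ofBijective
    (QuotientGroup.lift _
      ((kummerChar hζ hroots).codRestrict (levelChars F Ω p)
        (kummerChar_mem_levelChars hζ hroots))
      (by
        intro d hd
        apply Subtype.ext
        exact (kummerChar_eq_one_iff hζ hroots d).mpr hd))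
    (by
      constructor
      · rw [injective_iff_map_eq_one]
        intro q
        induction q using QuotientGroup.induction_on with
        | H d =>
          intro h
          have h' := congrArg Subtype.val h
          rw [QuotientGroup.eq_one_iff]
          exact (kummerChar_eq_one_iff hζ hroots d).mp h'
      · rintro ⟨χ, hχ⟩
        obtain ⟨d, hd⟩ := exists_kummerChar_eq hζ hroots hχ
        exact ⟨QuotientGroup.mk d, Subtype.ext hd⟩)

@[simp]
theorem kummerH1Equiv_mk [IsGalois F Ω] (d : Fˣ) :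
    (kummerH1Equiv hζ hroots (QuotientGroup.mk d) : (Ω ≃ₐ[F] Ω) →* rootsOfUnity p F) =
      kummerChar hζ hroots d := rfl

end H1

end Fermat.Agent.Lib.CFT.Kummer
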