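import Mathlib

/-!
# Auxiliary cyclic cyclotomic characters (Artin-Tate lemma), number-theoretic part

For integers `a ≥ 2`, a prime `q` and `R ≥ 2` there is a prime `l ≠ q` with `orderOf (a : ZMod l)
= q ^ R`.  From this: for every finite set `S` of integers `≥ 2` and every `n ≥ 1` there are a
modulus `m` prime to `S` and a character `χ : (ZMod m)ˣ →* ℂˣ` such that `n` divides the order
of `χ a` for every `a ∈ S`, and `χ (-1) ≠ 1`.
-/

set_option autoImplicit false

namespace Fermat.Agent.Lib.CFT.CyclotomicChar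

open Finset

/-- `q ^ 2` does not divide `∑ i < q, b ^ i` (for `q` odd, or `q = 2` and `b` a square). -/
theorem not_sq_dvd_geomSum {q : ℕ} (hq : q.Prime) (c : ℕ) :
    ¬ (q ^ 2 ∣ ∑ i ∈ range q, (c ^ q) ^ i) := by
  intro hdvd
  set b : ℕ := c ^ q with hb
  have hqT : q ∣ ∑ i ∈ range q, b ^ i := dvd_trans (dvd_pow_self q two_ne_zero) hdvd
  have : Fact q.Prime := ⟨hq⟩
  -- `b ≡ 1 mod q`
  have hb1 : (b : ZMod q) = 1 := by
    have h1 : ((∑ i ∈ range q, b ^ i : ℕ) : ZMod q) = 0 := (ZMod.natCast_eq_zero_iff _ _).2 hqT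
    have h2 := geom_sum_mul (b : ZMod q) q
    push_cast at h1
    rw [h1, zero_mul, ZMod.pow_card] at h2
    exact (sub_eq_zero.1 h2.symm)
  rcases hq.eq_two_or_odd' with rfl | hodd
  · -- `q = 2`
    have hbodd : b % 2 = 1 := by
      have := (ZMod.natCast_eq_natCast_iff' b 1 2).1 (by simpa using hb1)
      simpa using this
    have hcodd : c % 2 = 1 := by
      rcases Nat.mod_two_eq_zero_or_one c with h | h
      · exfalso
        have : b % 2 = 0 := by
          rw [hb, Nat.pow_mod, h]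
        omega
      · exact h
    have h4 : b % 4 = 1 := by
      have h4c : c % 4 = 1 ∨ c % 4 = 3 := by omega
      rw [hb, Nat.pow_mod]
      rcases h4c with h | h <;> rw [h]
    have hsum : ∑ i ∈ range 2, b ^ i = 1 + b := by
      simp [Finset.sum_range_succ]
    rw [hsum] at hdvd
    omega
  · -- `q` odd
    have hqZ : Prime ((q : ℕ) : ℤ) := Nat.prime_iff_prime_int.1 hq
    have hxy : ((q : ℕ) : ℤ) ∣ (b : ℤ) - 1 := by
      have : ((b : ℤ) : ZMod q) = ((1 : ℤ) : ZMod q) := by simpa using hb1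
      exact (ZMod.intCast_eq_intCast_iff_dvd_sub _ _ _).1 this.symm
    have hx : ¬ ((q : ℕ) : ℤ) ∣ (b : ℤ) := by
      intro h
      have h0 : (b : ZMod q) = 0 := by
        have := (ZMod.intCast_zmod_eq_zero_iff_dvd (b : ℤ) q).2 h
        simpa using this
      rw [hb1] at h0
      exact one_ne_zero h0
    have hm := emultiplicity_geom_sum₂_eq_one (R := ℤ) (x := (b : ℤ)) (y := 1) hqZ hodd hxy hx
    have hm' : emultiplicity ((q : ℕ) : ℤ) (∑ i ∈ range q, (b : ℤ) ^ i) = 1 := by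
      simpa using hm
    rw [← Nat.cast_one, emultiplicity_eq_coe] at hm'
    apply hm'.2
    have : ((q ^ 2 : ℕ) : ℤ) ∣ ((∑ i ∈ range q, b ^ i : ℕ) : ℤ) := Int.natCast_dvd_natCast.2 hdvd
    simpa using this

/-- For `a ≥ 2`, `q` prime and `R ≥ 2` there is a prime `l ≠ q` such that `a` has order exactly
`q ^ R` modulo `l`. -/
theorem exists_prime_orderOf_eq {a : ℕ} (ha : 2 ≤ a) {q : ℕ} (hq : q.Prime) {R : ℕ} (hR : 2 ≤ R) :
    ∃ l : ℕ, l.Prime ∧ l ≠ q ∧ orderOf (a : ZMod l) = q ^ R := by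
  obtain ⟨r, rfl⟩ : ∃ r, R = r + 2 := ⟨R - 2, by omega⟩
  set c : ℕ := a ^ q ^ r with hc
  set b : ℕ := c ^ q with hb
  set T : ℕ := ∑ i ∈ range q, b ^ i with hT
  have hq2 : 2 ≤ q := hq.two_le
  have hc2 : 2 ≤ c := by
    calc 2 ≤ a := ha
      _ = a ^ 1 := (pow_one a).symm
      _ ≤ a ^ q ^ r := Nat.pow_le_pow_right (by omega) (Nat.one_le_pow _ _ hq.pos)
  have hbq : q < b := by
    calc q < 2 ^ q := Nat.lt_two_pow_self
      _ ≤ c ^ q := Nat.pow_le_pow_left hc2 q
  have hTb : 1 + b ≤ T := by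
    obtain ⟨k, rfl⟩ : ∃ k, q = k + 2 := ⟨q - 2, by omega⟩
    rw [hT, Finset.sum_range_succ', Finset.sum_range_succ']
    simp only [pow_zero, zero_add, pow_one]
    omega
  have hnsq : ¬ q ^ 2 ∣ T := not_sq_dvd_geomSum hq c
  -- a prime divisor of `T` different from `q`
  obtain ⟨l, hl, hlT, hlq⟩ : ∃ l : ℕ, l.Prime ∧ l ∣ T ∧ l ≠ q := by
    by_cases hqT : q ∣ T
    · obtain ⟨T', hT'⟩ := hqT
      have hT'1 : T' ≠ 1 := by
        rintro rfl
        omega
      refine ⟨T'.minFac, Nat.minFac_prime hT'1, ?_, ?_⟩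
      · exact dvd_trans (Nat.minFac_dvd T') ⟨q, by rw [hT', mul_comm]⟩
      · intro h
        apply hnsq
        have : q ∣ T' := h ▸ Nat.minFac_dvd T'
        obtain ⟨T'', rfl⟩ := this
        exact ⟨T'', by rw [hT']; ring⟩
    · have hT1 : T ≠ 1 := by omega
      refine ⟨T.minFac, Nat.minFac_prime hT1, Nat.minFac_dvd T, ?_⟩
      intro h
      exact hqT (h ▸ Nat.minFac_dvd T)
  refine ⟨l, hl, hlq, ?_⟩
  have : Fact l.Prime := ⟨hl⟩
  have : Fact q.Prime := ⟨hq⟩
  have hT0 : ((T : ℕ) : ZMod l) = 0 := (ZMod.natCast_eq_zero_iff _ _).2 hlT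
  have hgeo := geom_sum_mul (b : ZMod l) q
  have hT0' : ∑ i ∈ range q, (b : ZMod l) ^ i = 0 := by
    rw [hT] at hT0
    push_cast at hT0
    exact hT0
  have hbq1 : (b : ZMod l) ^ q = 1 := by
    rw [hT0', zero_mul] at hgeo
    exact (sub_eq_zero.1 hgeo.symm)
  have hbne : (b : ZMod l) ≠ 1 := by
    intro h1
    rw [h1] at hT0'
    simp only [one_pow, sum_const, card_range, nsmul_eq_mul, mul_one] at hT0'
    have := (ZMod.natCast_eq_zero_iff q l).1 hT0'
    exact hlq ((Nat.prime_dvd_prime_iff_eq hl hq).1 this)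
  have hab : (a : ZMod l) ^ q ^ (r + 1) = (b : ZMod l) := by
    rw [hb, hc]
    push_cast
    rw [← pow_mul, pow_succ]
  apply orderOf_eq_prime_pow
  · rw [hab]
    exact hbne
  · rw [pow_succ q (r + 1), pow_mul, hab]
    exact hbq1

theorem coprime_of_orderOf_ne_zero {a m : ℕ} (h : orderOf (a : ZMod m) ≠ 0) : a.Coprime m :=
  (ZMod.isUnit_iff_coprime a m).1 (orderOf_ne_zero_iff.1 h).isUnit

/-- Artin's lemma with avoidance: for every bound `B` and every finite set `T` there are `R ≥ B`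
and a prime `l ∉ T`, `l ≠ q`, prime to `a`, such that `a` has order exactly `q ^ R` modulo `l`. -/
theorem exists_prime_notMem_orderOf_eq {a : ℕ} (ha : 2 ≤ a) {q : ℕ} (hq : q.Prime) (B : ℕ)
    (T : Finset ℕ) :
    ∃ R : ℕ, B ≤ R ∧ ∃ l : ℕ, l.Prime ∧ l ∉ T ∧ l ≠ q ∧ a.Coprime l ∧
      orderOf (a : ZMod l) = q ^ R := by
  have hex : ∀ k : ℕ, ∃ l : ℕ, l.Prime ∧ l ≠ q ∧ orderOf (a : ZMod l) = q ^ (B + 2 + k) :=
    fun k => exists_prime_orderOf_eq ha hq (by omega)
  choose f hf using hex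
  have hinj : Function.Injective f := by
    intro k1 k2 h
    have h1 := (hf k1).2.2
    have h2 := (hf k2).2.2
    rw [h] at h1
    rw [h1] at h2
    have := Nat.pow_right_injective hq.two_le h2
    omega
  obtain ⟨l, ⟨k, rfl⟩, hl⟩ := (Set.infinite_range_of_injective hinj).exists_notMem_finset T
  refine ⟨B + 2 + k, by omega, f k, (hf k).1, hl, (hf k).2.1, ?_, (hf k).2.2⟩
  apply coprime_of_orderOf_ne_zero
  rw [(hf k).2.2]
  exact (pow_pos hq.pos _).ne'

/-- Avoiding a finite set: there is a prime `l ∉ T` with `q ^ B ∣ orderOf (a : ZMod l)`. -/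
theorem exists_prime_notMem_pow_dvd_orderOf {a : ℕ} (ha : 2 ≤ a) {q : ℕ} (hq : q.Prime) (B : ℕ)
    (T : Finset ℕ) :
    ∃ l : ℕ, l.Prime ∧ l ∉ T ∧ a.Coprime l ∧ q ^ B ∣ orderOf (a : ZMod l) := by
  have hex : ∀ k : ℕ, ∃ l : ℕ, l.Prime ∧ l ≠ q ∧ orderOf (a : ZMod l) = q ^ (B + 2 + k) :=
    fun k => exists_prime_orderOf_eq ha hq (by omega)
  choose f hf using hex
  have hinj : Function.Injective f := by
    intro k1 k2 h
    have h1 := (hf k1).2.2
    have h2 := (hf k2).2.2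
    rw [h] at h1
    rw [h1] at h2
    have := Nat.pow_right_injective hq.two_le h2
    omega
  obtain ⟨l, ⟨k, rfl⟩, hl⟩ := (Set.infinite_range_of_injective hinj).exists_notMem_finset T
  refine ⟨f k, (hf k).1, hl, ?_, ?_⟩
  · apply coprime_of_orderOf_ne_zero
    rw [(hf k).2.2]
    exact (pow_pos hq.pos _).ne'
  · rw [(hf k).2.2]
    exact pow_dvd_pow q (by omega)

theorem orderOf_natCast_dvd_of_dvd {m₁ m : ℕ} (h : m₁ ∣ m) (a : ℕ) :
    orderOf (a : ZMod m₁) ∣ orderOf (a : ZMod m) := by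
  have := orderOf_map_dvd ((ZMod.castHom h (ZMod m₁)).toMonoidHom) (a : ZMod m)
  simpa using this

/-- For `a ≥ 2` and `N ≠ 0` there is a modulus `m` prime to `a`, all of whose prime factors avoid
`T`, such that `N` divides the order of `a` modulo `m`. -/
theorem exists_modulus_dvd_orderOf {a : ℕ} (ha : 2 ≤ a) (T : Finset ℕ) (N : ℕ) (hN : N ≠ 0) :
    ∃ m : ℕ, 0 < m ∧ (∀ l : ℕ, l.Prime → l ∣ m → l ∉ T) ∧ a.Coprime m ∧
      N ∣ orderOf (a : ZMod m) := by
  induction N using Nat.recOnPosPrimePosCoprime with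
  | prime_pow q B hq _ =>
    obtain ⟨l, hl, hlT, hcop, hdvd⟩ := exists_prime_notMem_pow_dvd_orderOf ha hq B T
    refine ⟨l, hl.pos, ?_, hcop, hdvd⟩
    intro l' hl' hdiv
    rwa [(Nat.prime_dvd_prime_iff_eq hl' hl).1 hdiv]
  | zero => exact absurd rfl hN
  | one =>
    exact ⟨1, one_pos, fun l hl hdiv => absurd (Nat.dvd_one.1 hdiv) hl.ne_one,
      Nat.coprime_one_right a, one_dvd _⟩
  | coprime x y hx hy hxy ihx ihy =>
    obtain ⟨m₁, hm₁, hT₁, hc₁, hd₁⟩ := ihx (by omega)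
    obtain ⟨m₂, hm₂, hT₂, hc₂, hd₂⟩ := ihy (by omega)
    refine ⟨m₁ * m₂, Nat.mul_pos hm₁ hm₂, ?_, Nat.Coprime.mul_right hc₁ hc₂, ?_⟩
    · intro l hl hdiv
      rcases (Nat.Prime.dvd_mul hl).1 hdiv with h | h
      · exact hT₁ l hl h
      · exact hT₂ l hl h
    · exact Nat.Coprime.mul_dvd_of_dvd_of_dvd hxy
        (hd₁.trans (orderOf_natCast_dvd_of_dvd (dvd_mul_right m₁ m₂) a))
        (hd₂.trans (orderOf_natCast_dvd_of_dvd (dvd_mul_left m₂ m₁) a))

/-- Simultaneous version for a finite set `S` of integers `≥ 2`; the avoided set `T` is assumed to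
contain the prime factors of the elements of `S` (so that `m` is prime to all of them). -/
theorem exists_modulus_forall_dvd_orderOf (S : Finset ℕ) (hS : ∀ a ∈ S, 2 ≤ a) (T : Finset ℕ)
    (hST : ∀ a ∈ S, ∀ l : ℕ, l.Prime → l ∣ a → l ∈ T) (N : ℕ) (hN : N ≠ 0) :
    ∃ m : ℕ, 0 < m ∧ (∀ l : ℕ, l.Prime → l ∣ m → l ∉ T) ∧
      ∀ a ∈ S, a.Coprime m ∧ N ∣ orderOf (a : ZMod m) := by
  classical
  have key : ∀ S' : Finset ℕ, S' ⊆ S → ∃ m : ℕ, 0 < m ∧ (∀ l : ℕ, l.Prime → l ∣ m → l ∉ T) ∧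
      ∀ a ∈ S', N ∣ orderOf (a : ZMod m) := by
    intro S'
    induction S' using Finset.induction_on with
    | empty =>
      intro _
      exact ⟨1, one_pos, fun l hl hdiv => absurd (Nat.dvd_one.1 hdiv) hl.ne_one, by simp⟩
    | insert a S' _ ih =>
      intro hsub
      obtain ⟨m₁, hm₁, hT₁, hd₁⟩ := ih (fun b hb => hsub (Finset.mem_insert_of_mem hb))
      obtain ⟨m₂, hm₂, hT₂, -, hd₂⟩ :=
        exists_modulus_dvd_orderOf (hS a (hsub (Finset.mem_insert_self a S'))) T N hN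
      refine ⟨m₁ * m₂, Nat.mul_pos hm₁ hm₂, ?_, ?_⟩
      · intro l hl hdiv
        rcases (Nat.Prime.dvd_mul hl).1 hdiv with h | h
        · exact hT₁ l hl h
        · exact hT₂ l hl h
      · intro b hb
        rcases Finset.mem_insert.1 hb with rfl | hb
        · exact hd₂.trans (orderOf_natCast_dvd_of_dvd (dvd_mul_left m₂ m₁) b)
        · exact (hd₁ b hb).trans (orderOf_natCast_dvd_of_dvd (dvd_mul_right m₁ m₂) b)
  obtain ⟨m, hm, hT, hd⟩ := key S le_rfl
  refine ⟨m, hm, hT, fun a ha => ⟨?_, hd a ha⟩⟩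
  apply Nat.Coprime.symm
  apply Nat.coprime_of_dvd
  intro l hl hlm hla
  exact hT l hl hlm (hST a ha l hl hla)

/-- The number of characters of a finite abelian group killing `g` is `|G| / orderOf g`. -/
theorem card_char_apply_eq_one {G : Type*} [CommGroup G] [Finite G] (g : G) :
    Nat.card {χ : G →* ℂˣ // χ g = 1} * orderOf g = Nat.card G := by
  have h1 := CommGroup.card_domRestrictHom_ker (G := G) ℂ (Subgroup.zpowers g)
  have h2 := Subgroup.card_eq_card_quotient_mul_card_subgroup (Subgroup.zpowers g)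
  rw [Nat.card_zpowers] at h2
  rw [h2, ← h1]
  congr 1
  apply Nat.card_congr
  refine Equiv.subtypeEquivRight (fun χ => ?_)
  rw [MonoidHom.mem_ker]
  constructor
  · intro h
    ext ⟨x, hx⟩
    obtain ⟨n, rfl⟩ := Subgroup.mem_zpowers_iff.1 hx
    simp [MonoidHom.domRestrictHom, h]
  · intro h
    have := DFunLike.congr_fun h ⟨g, Subgroup.mem_zpowers g⟩
    simpa [MonoidHom.domRestrictHom] using this

/-- Counting lemma: if `∑ 1 / orderOf (k i) < 1`, some character of the finite abelian group `G`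
is nontrivial on every `k i`. -/
theorem exists_char_forall_apply_ne_one {G : Type*} [CommGroup G] [Finite G] {ι : Type*}
    (s : Finset ι) (k : ι → G) (h : ∑ i ∈ s, (1 : ℚ) / (orderOf (k i) : ℚ) < 1) :
    ∃ χ : G →* ℂˣ, ∀ i ∈ s, χ (k i) ≠ 1 := by
  classical
  by_contra hcon
  push Not at hcon
  have : Fintype (G →* ℂˣ) := Fintype.ofFinite _
  let Ann : ι → Finset (G →* ℂˣ) := fun i => univ.filter (fun χ => χ (k i) = 1)
  have hcover : (univ : Finset (G →* ℂˣ)) ⊆ s.biUnion Ann := by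
    intro χ _
    obtain ⟨i, hi, hχ⟩ := hcon χ
    exact mem_biUnion.2 ⟨i, hi, by simp [Ann, hχ]⟩
  have hle : Fintype.card (G →* ℂˣ) ≤ ∑ i ∈ s, (Ann i).card :=
    (card_le_card hcover).trans card_biUnion_le
  have hG : (0 : ℚ) < Nat.card G := by exact_mod_cast Nat.card_pos
  have hAnn : ∀ i, ((Ann i).card : ℚ) = (Nat.card G : ℚ) * (1 / (orderOf (k i) : ℚ)) := by
    intro i
    have h1 := card_char_apply_eq_one (k i)
    have h2 : Nat.card {χ : G →* ℂˣ // χ (k i) = 1} = (Ann i).card := by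
      rw [Nat.card_eq_fintype_card, Fintype.card_subtype]
    have h3 : (0 : ℚ) < orderOf (k i) := by exact_mod_cast orderOf_pos (k i)
    rw [h2] at h1
    rw [← h1]
    push_cast
    field_simp
  have hX : (Fintype.card (G →* ℂˣ) : ℚ) = Nat.card G := by
    rw [← Nat.card_eq_fintype_card, CommGroup.card_monoidHom_of_hasEnoughRootsOfUnity G ℂ]
  have : (Nat.card G : ℚ) ≤ (Nat.card G : ℚ) * ∑ i ∈ s, (1 : ℚ) / (orderOf (k i) : ℚ) := by
    rw [← hX, Finset.mul_sum]
    calc (Fintype.card (G →* ℂˣ) : ℚ) ≤ ((∑ i ∈ s, (Ann i).card : ℕ) : ℚ) := by exact_mod_cast hle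
      _ = ∑ i ∈ s, ((Ann i).card : ℚ) := by push_cast; rfl
      _ = _ := Finset.sum_congr rfl (fun i _ => by rw [hAnn i, hX])
  nlinarith

/-- If `y ^ E = 1` and `y ^ (q ^ (r - 1) * E') ≠ 1`, where `E'` is the prime-to-`q` part of `E`,
then `q ^ r` divides the order of `y`. -/
theorem prime_pow_dvd_orderOf_of_pow_ne_one {H : Type*} [Monoid H] {y : H} {E : ℕ} (hE : E ≠ 0)
    (hy : y ^ E = 1) {q : ℕ} (hq : q.Prime) {r : ℕ}
    (hne : y ^ (q ^ (r - 1) * (E / q ^ E.factorization q)) ≠ 1) : q ^ r ∣ orderOf y := by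
  by_contra hnot
  apply hne
  rw [← orderOf_dvd_iff_pow_eq_one]
  set o := orderOf y with ho
  set w := E.factorization q with hw
  set E' := E / q ^ w with hE'
  have hoE : o ∣ E := orderOf_dvd_of_pow_eq_one hy
  have hEE : q ^ w * E' = E := Nat.ordProj_mul_ordCompl_eq_self E q
  have hcop : Nat.Coprime (q ^ w) E' := Nat.Coprime.pow_left _ (Nat.coprime_ordCompl hq hE)
  have hgcd : o = Nat.gcd o (q ^ w) * Nat.gcd o E' := by
    rw [← Nat.Coprime.gcd_mul o hcop, hEE]
    exact (Nat.gcd_eq_left hoE).symm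
  obtain ⟨i, -, hi⟩ := (Nat.dvd_prime_pow hq).1 (Nat.gcd_dvd_right o (q ^ w))
  have hir : i < r := by
    by_contra hge
    push Not at hge
    apply hnot
    calc q ^ r ∣ q ^ i := pow_dvd_pow q hge
      _ ∣ o := hi ▸ Nat.gcd_dvd_left o (q ^ w)
  rw [hgcd, hi]
  exact Nat.mul_dvd_mul (pow_dvd_pow q (by omega)) (Nat.gcd_dvd_right o E')

/-- If `q ^ (r + c)` divides the order of `g` then `q ^ (c + 1)` divides the order of
`g ^ (q ^ (r - 1) * E')` for `E'` prime to `q` (and `r ≥ 1`). -/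
theorem prime_pow_dvd_orderOf_pow {H : Type*} [Monoid H] {g : H} {q : ℕ} (hq : q.Prime)
    {r c E' : ℕ} (hr : 1 ≤ r) (hcop : Nat.Coprime q E') (hg : q ^ (r + c) ∣ orderOf g) :
    q ^ (c + 1) ∣ orderOf (g ^ (q ^ (r - 1) * E')) := by
  set o2 := orderOf (g ^ (q ^ (r - 1) * E')) with ho2
  have h1 : g ^ (q ^ (r - 1) * E' * o2) = 1 := by
    rw [pow_mul, ho2, pow_orderOf_eq_one]
  have h2 : q ^ (r + c) ∣ q ^ (r - 1) * E' * o2 := hg.trans (orderOf_dvd_of_pow_eq_one h1)
  have h3 : q ^ (r - 1) * q ^ (c + 1) ∣ q ^ (r - 1) * (E' * o2) := by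
    rw [← pow_add, ← mul_assoc]
    have : r - 1 + (c + 1) = r + c := by omega
    rw [this]
    exact h2
  have h4 : q ^ (c + 1) ∣ E' * o2 :=
    Nat.dvd_of_mul_dvd_mul_left (pow_pos hq.pos _) h3
  exact (Nat.Coprime.pow_left _ hcop).dvd_of_dvd_mul_left h4

/-- In a finite abelian group `G`, let `J` be a finite set of elements whose orders are divisible
by `n ^ (c + 1)`, where `2 ^ c > |J| * ω(n)`, and let `z` have order two.  Then there is a character
`χ` of `G` with `n ∣ orderOf (χ g)` for all `g ∈ J` and `χ z ≠ 1`. -/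
theorem exists_char_dvd_orderOf {G : Type*} [CommGroup G] [Finite G] {n : ℕ} (hn : n ≠ 0)
    (J : Finset G) (z : G) (hz : orderOf z = 2) (c : ℕ)
    (hc : J.card * n.primeFactors.card < 2 ^ c) (hJ : ∀ g ∈ J, n ^ (c + 1) ∣ orderOf g) :
    ∃ χ : G →* ℂˣ, (∀ g ∈ J, n ∣ orderOf (χ g)) ∧ χ z ≠ 1 := by
  classical
  set E := Nat.card G with hE
  have hE0 : E ≠ 0 := Nat.card_pos.ne'
  let e : ℕ → ℕ := fun q => q ^ (n.factorization q - 1) * (E / q ^ E.factorization q)
  let k : Option (G × ℕ) → G := fun i => i.elim z (fun p => p.1 ^ e p.2)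
  let s : Finset (Option (G × ℕ)) := insertNone (J ×ˢ n.primeFactors)
  have hord : ∀ p ∈ J ×ˢ n.primeFactors, (2 : ℚ) ^ (c + 1) ≤ (orderOf (k (some p)) : ℚ) := by
    rintro ⟨g, q⟩ hp
    obtain ⟨hg, hq⟩ := Finset.mem_product.1 hp
    have hqp : q.Prime := Nat.prime_of_mem_primeFactors hq
    have hqn : q ∣ n := Nat.dvd_of_mem_primeFactors hq
    have hr : 1 ≤ n.factorization q :=
      (hqp.dvd_iff_one_le_factorization hn).1 hqn
    have h1 : q ^ (n.factorization q + c) ∣ orderOf g := by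
      refine dvd_trans ?_ (hJ g hg)
      calc q ^ (n.factorization q + c) ∣ q ^ (n.factorization q * (c + 1)) :=
            pow_dvd_pow q (by nlinarith)
        _ = (q ^ n.factorization q) ^ (c + 1) := pow_mul _ _ _
        _ ∣ n ^ (c + 1) := pow_dvd_pow_of_dvd (Nat.ordProj_dvd n q) _
    have h2 : q ^ (c + 1) ∣ orderOf (k (some (g, q))) :=
      prime_pow_dvd_orderOf_pow hqp hr (Nat.coprime_ordCompl hqp hE0) h1
    have h3 : 0 < orderOf (k (some (g, q))) := orderOf_pos _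
    have h4 : 2 ^ (c + 1) ≤ orderOf (k (some (g, q))) :=
      (Nat.pow_le_pow_left hqp.two_le _).trans (Nat.le_of_dvd h3 h2)
    exact_mod_cast h4
  have hsum : ∑ i ∈ s, (1 : ℚ) / (orderOf (k i) : ℚ) < 1 := by
    rw [Finset.sum_insertNone]
    have h1 : (1 : ℚ) / (orderOf (k none) : ℚ) = 1 / 2 := by
      change (1 : ℚ) / (orderOf z : ℚ) = 1 / 2
      rw [hz]; norm_num
    have h2 : ∑ p ∈ J ×ˢ n.primeFactors, (1 : ℚ) / (orderOf (k (some p)) : ℚ) ≤
        ∑ _p ∈ J ×ˢ n.primeFactors, (1 : ℚ) / 2 ^ (c + 1) := by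
      apply Finset.sum_le_sum
      intro p hp
      exact one_div_le_one_div_of_le (by positivity) (hord p hp)
    rw [Finset.sum_const, Finset.card_product, nsmul_eq_mul] at h2
    have h3 : ((J.card * n.primeFactors.card : ℕ) : ℚ) < 2 ^ c := by exact_mod_cast hc
    have h4 : ((J.card * n.primeFactors.card : ℕ) : ℚ) * (1 / 2 ^ (c + 1)) < 1 / 2 := by
      rw [pow_succ, mul_one_div, div_lt_div_iff₀ (by positivity) (by positivity)]
      nlinarith
    rw [h1]
    linarith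
  obtain ⟨χ, hχ⟩ := exists_char_forall_apply_ne_one s k hsum
  refine ⟨χ, ?_, ?_⟩
  · intro g hg
    rw [Nat.dvd_iff_prime_pow_dvd_dvd]
    intro q j hq hqj
    rcases Nat.eq_zero_or_pos j with rfl | hj
    · simp
    have hqn : q ∣ n := dvd_trans (dvd_pow_self q hj.ne') hqj
    have hqmem : q ∈ n.primeFactors := Nat.mem_primeFactors.2 ⟨hq, hqn, hn⟩
    have hjle : j ≤ n.factorization q := (hq.pow_dvd_iff_le_factorization hn).1 hqj
    refine dvd_trans (pow_dvd_pow q hjle) ?_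
    have hmem : some (g, q) ∈ s := by
      simp only [s, Finset.mem_insertNone]
      intro p hp
      rw [Option.mem_def, Option.some.injEq] at hp
      rw [← hp]
      exact Finset.mem_product.2 ⟨hg, hqmem⟩
    have hne := hχ _ hmem
    have hyE : (χ g) ^ E = 1 := by
      rw [← map_pow, hE, pow_card_eq_one', map_one]
    apply prime_pow_dvd_orderOf_of_pow_ne_one hE0 hyE hq
    rw [← map_pow]
    exact hne
  · have hmem : none ∈ s := by simp [s]
    exact hχ _ hmem

/-- **Artin-Tate lemma, number-theoretic form.**  Given `n ≠ 0`, a finite set `S` of integers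
`≥ 2` and a finite set `T` of primes to avoid, there are a modulus `m > 2`, all of whose prime
factors avoid `T` and which is prime to every `a ∈ S`, and a character `χ` of `(ZMod m)ˣ` with
`χ (-1) ≠ 1` such that `n` divides the order of `χ a` for every `a ∈ S`. -/
theorem exists_character (n : ℕ) (hn : n ≠ 0) (S : Finset ℕ) (hS : ∀ a ∈ S, 2 ≤ a)
    (T : Finset ℕ) :
    ∃ m : ℕ, 2 < m ∧ (∀ l : ℕ, l.Prime → l ∣ m → l ∉ T) ∧
      ∃ χ : (ZMod m)ˣ →* ℂˣ, χ (-1) ≠ 1 ∧
        ∀ a ∈ S, ∃ h : a.Coprime m, n ∣ orderOf (χ (ZMod.unitOfCoprime a h)) := by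
  classical
  set c := S.card * n.primeFactors.card with hc
  have hN : 2 * n ^ (c + 1) ≠ 0 := by positivity
  set T' : Finset ℕ := T ∪ (insert 2 S).biUnion Nat.primeFactors with hT'
  obtain ⟨m, hm, hT, hd⟩ := exists_modulus_forall_dvd_orderOf (insert 2 S)
    (by
      intro a ha
      rcases Finset.mem_insert.1 ha with rfl | ha
      · exact le_rfl
      · exact hS a ha) T'
    (by
      intro a ha l hl hla
      refine Finset.mem_union_right _ (Finset.mem_biUnion.2 ⟨a, ha, ?_⟩)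
      refine Nat.mem_primeFactors.2 ⟨hl, hla, ?_⟩
      rcases Finset.mem_insert.1 ha with rfl | ha
      · norm_num
      · have := hS a ha
        omega) (2 * n ^ (c + 1)) hN
  -- `m > 2`
  have hm2 : 2 < m := by
    obtain ⟨hcop, h2⟩ := hd 2 (Finset.mem_insert_self 2 S)
    by_contra hle
    push Not at hle
    have hcases : m = 1 ∨ m = 2 := by omega
    rcases hcases with rfl | rfl
    · have h1 : orderOf ((2 : ℕ) : ZMod 1) = 1 := by
        rw [orderOf_eq_one_iff]; exact Subsingleton.elim _ _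
      rw [h1] at h2
      have : 2 * n ^ (c + 1) = 1 := Nat.dvd_one.1 h2
      omega
    · norm_num at hcop
  have : NeZero m := ⟨by omega⟩
  have : Fact (2 < m) := ⟨hm2⟩
  have hcop : ∀ a ∈ S, a.Coprime m := fun a ha => (hd a (Finset.mem_insert_of_mem ha)).1
  let uof : ℕ → (ZMod m)ˣ := fun a => if h : a.Coprime m then ZMod.unitOfCoprime a h else 1
  have huof : ∀ a (h : a.Coprime m), uof a = ZMod.unitOfCoprime a h := by
    intro a h
    simp only [uof, dif_pos h]
  have hJ : ∀ g ∈ S.image uof, n ^ (c + 1) ∣ orderOf g := by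
    intro g hg
    obtain ⟨a, ha, rfl⟩ := Finset.mem_image.1 hg
    have h2 := (hd a (Finset.mem_insert_of_mem ha)).2
    rw [huof a (hcop a ha), ← orderOf_units, ZMod.coe_unitOfCoprime]
    exact (dvd_mul_left _ 2).trans h2
  have hz : orderOf (-1 : (ZMod m)ˣ) = 2 := by
    rw [orderOf_eq_iff two_pos]
    refine ⟨by simp, ?_⟩
    intro k hk hk0
    have hk1 : k = 1 := by omega
    rw [hk1, pow_one]
    intro h
    have h' : ((-1 : (ZMod m)ˣ) : ZMod m) = ((1 : (ZMod m)ˣ) : ZMod m) := by rw [h]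
    simp only [Units.val_neg, Units.val_one] at h'
    exact ZMod.neg_one_ne_one h'
  have hcard : (S.image uof).card * n.primeFactors.card < 2 ^ c :=
    lt_of_le_of_lt (Nat.mul_le_mul_right _ Finset.card_image_le) (hc ▸ Nat.lt_two_pow_self)
  obtain ⟨χ, hχ, hχz⟩ := exists_char_dvd_orderOf hn (S.image uof) (-1) hz c hcard hJ
  refine ⟨m, hm2, ?_, χ, hχz, ?_⟩
  · intro l hl hlm hlT
    exact hT l hl hlm (Finset.mem_union_left _ hlT)
  · intro a ha
    refine ⟨hcop a ha, ?_⟩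
    rw [← huof a (hcop a ha)]
    exact hχ _ (Finset.mem_image_of_mem uof ha)

end Fermat.Agent.Lib.CFT.CyclotomicChar
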